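import Fermat.Agent.S19.KM.Red.Basic

/-!
# S19 / KM route, layer [V], section V1: frames.   Mathlib only.
-/

set_option autoImplicit false

noncomputable section

namespace Fermat.Agent.S19.KM.RedData

open Module Submodule

variable {K F k Fk : Type*} [Field K] [Field F] [Algebra K F] [Field k] [Field Fk] [Algebra k Fk]
variable (R : RedData K F k Fk)

section V1
variable {R} {ι : Type*} {v : ι → F} {vb : ι → Fk}

/-- among finitely many elements of `K`, not all zero, one of them divides all the others in `A` -/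
theorem exists_pivot (A : ValuationSubring K) (T : Finset ι) (g : ι → K)
    (hne : ∃ j ∈ T, g j ≠ 0) : ∃ j0 ∈ T, g j0 ≠ 0 ∧ ∀ j ∈ T, g j / g j0 ∈ A := by
  obtain ⟨j1, hj1, hg1⟩ := hne
  obtain ⟨j0, hj0, hmax⟩ := Finset.exists_max_image T (fun j => A.valuation (g j)) ⟨j1, hj1⟩
  have h0 : g j0 ≠ 0 := by
    intro h0
    have := hmax j1 hj1
    simp only [h0, map_zero, le_zero_iff] at this
    exact hg1 ((map_eq_zero _).1 this)
  refine ⟨j0, hj0, h0, fun j hj => ?_⟩
  rw [← A.valuation_le_one_iff, map_div₀]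
  have hpos : 0 < A.valuation (g j0) := zero_lt_iff.2 ((map_ne_zero _).2 h0)
  exact (div_le_one₀ hpos).2 (hmax j hj)

/-- normalised coefficients -/
theorem exists_normalize (A : ValuationSubring K) (T : Finset ι) (g : ι → K)
    (hne : ∃ j ∈ T, g j ≠ 0) : ∃ j0 ∈ T, g j0 ≠ 0 ∧ ∃ c : ι → A, c j0 = 1 ∧
      (∀ j ∈ T, ((c j : A) : K) = (g j0)⁻¹ * g j) ∧ ∀ j ∉ T, c j = 0 := by
  classical
  obtain ⟨j0, hj0, h0, hdiv⟩ := exists_pivot A T g hne
  refine ⟨j0, hj0, h0, fun j => if hj : j ∈ T then ⟨g j / g j0, hdiv j hj⟩ else 0, ?_, ?_, ?_⟩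
  · beta_reduce
    rw [dif_pos hj0]
    exact Subtype.ext (div_self h0)
  · intro j hj
    beta_reduce
    rw [dif_pos hj]
    show g j / g j0 = _
    rw [div_eq_mul_inv, mul_comm]
  · intro j hj
    beta_reduce
    rw [dif_neg hj]

theorem IsFrame.red_sum (h : R.IsFrame v vb) (T : Finset ι) (c : ι → R.A) :
    R.Red (∑ j ∈ T, ((c j : R.A) : K) • v j) (∑ j ∈ T, R.res (c j) • vb j) :=
  Red.sum T fun j _ => (h.red j).smul (c j)

theorem IsFrame.sum_res_ne_zero (h : R.IsFrame v vb) (T : Finset ι) (c : ι → R.A) {j0 : ι}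
    (hj0 : j0 ∈ T) (h1 : c j0 = 1) : ∑ j ∈ T, R.res (c j) • vb j ≠ 0 := by
  intro hs
  have := linearIndependent_iff'.1 h.indep T (fun j => R.res (c j)) hs j0 hj0
  simp only [h1, map_one] at this
  exact one_ne_zero this

/-- scaling a nonzero combination of a frame -/
theorem IsFrame.exists_scale_sum (_h : R.IsFrame v vb) (T : Finset ι) (g : ι → K)
    (hne : ∃ j ∈ T, g j ≠ 0) : ∃ j0 ∈ T, g j0 ≠ 0 ∧ ∃ c : ι → R.A, c j0 = 1 ∧
      (∀ j ∉ T, c j = 0) ∧ (∀ j ∈ T, ((c j : R.A) : K) = (g j0)⁻¹ * g j) ∧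
      (g j0)⁻¹ • ∑ j ∈ T, g j • v j = ∑ j ∈ T, ((c j : R.A) : K) • v j := by
  obtain ⟨j0, hj0, h0, c, hc1, hc, hc0⟩ := exists_normalize R.A T g hne
  refine ⟨j0, hj0, h0, c, hc1, hc0, hc, ?_⟩
  rw [Finset.smul_sum]
  refine Finset.sum_congr rfl fun j hj => ?_
  rw [hc j hj, smul_smul]

/-- scale a nontrivial relation so that all coefficients are in `A` and one is a unit -/
theorem IsFrame.linearIndependent (h : R.IsFrame v vb) : LinearIndependent K v := by
  rw [linearIndependent_iff']
  intro s g hsum i hi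
  by_contra hgi
  obtain ⟨j0, hj0, -, c, hc1, -, -, hc⟩ := h.exists_scale_sum s g ⟨i, hi, hgi⟩
  rw [hsum, smul_zero] at hc
  have hr := h.red_sum s c
  rw [← hc] at hr
  exact h.sum_res_ne_zero s c hj0 hc1 (hr.unique Red.zero)

theorem IsFrame.sum_mem_O_iff [Fintype ι] (h : R.IsFrame v vb) (c : ι → K) :
    ∑ j, c j • v j ∈ R.O ↔ ∀ j, c j ∈ R.A := by
  constructor
  · intro hO
    by_contra hcon
    push Not at hcon
    obtain ⟨j1, hj1⟩ := hcon
    have hj1' : c j1 ≠ 0 := by
      intro h0
      exact hj1 (h0 ▸ R.A.zero_mem)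
    obtain ⟨j0, hj0, h0, c', hc1, -, hc', hsum⟩ :=
      h.exists_scale_sum Finset.univ c ⟨j1, Finset.mem_univ _, hj1'⟩
    have hnot : c j0 ∉ R.A := by
      intro hmem
      apply hj1
      have h2 : c j1 = c j0 * ((c' j1 : R.A) : K) := by
        rw [hc' j1 (Finset.mem_univ _), mul_inv_cancel_left₀ h0]
      rw [h2]
      exact R.A.mul_mem _ _ hmem (c' j1).2
    have hinv : (c j0)⁻¹ ∈ R.A := (R.A.mem_or_inv_mem (c j0)).resolve_left hnot
    have hnu : ¬ IsUnit (⟨(c j0)⁻¹, hinv⟩ : R.A) := by
      rintro ⟨u, hu⟩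
      apply hnot
      have h2 : ((u⁻¹ : (R.A)ˣ) : R.A) * (u : R.A) = 1 := u.inv_mul
      have h3 : ((u⁻¹ : (R.A)ˣ) : R.A).1 * (c j0)⁻¹ = 1 := by
        have := congrArg Subtype.val h2
        rw [hu] at this
        exact this
      have h4 : ((u⁻¹ : (R.A)ˣ) : R.A).1 = c j0 := by
        have := eq_inv_of_mul_eq_one_left h3
        rwa [inv_inv] at this
      exact h4 ▸ ((u⁻¹ : (R.A)ˣ) : R.A).2
    have hres : R.res ⟨(c j0)⁻¹, hinv⟩ = 0 := (R.res_eq_zero _).2 hnu
    have hr1 : R.Red ((c j0)⁻¹ • ∑ j, c j • v j) 0 := by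
      have := Red.smul (R := R) ⟨(c j0)⁻¹, hinv⟩ (⟨hO, rfl⟩ : R.Red (∑ j, c j • v j) _)
      rwa [hres, zero_smul] at this
    rw [hsum] at hr1
    exact h.sum_res_ne_zero Finset.univ c' hj0 hc1 ((h.red_sum Finset.univ c').unique hr1)
  · intro hc
    exact (h.red_sum Finset.univ fun j => ⟨c j, hc j⟩).1

theorem IsFrame.exists_comb_of_red [Fintype ι] (h : R.IsFrame v vb) {f : F} {fb : Fk}
    (hf : f ∈ span K (Set.range v)) (hr : R.Red f fb) :
    ∃ c : ι → R.A, f = R.comb v c ∧ fb = R.combk vb c := by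
  obtain ⟨c, rfl⟩ := (Submodule.mem_span_range_iff_exists_fun K).1 hf
  have hc := (h.sum_mem_O_iff c).1 hr.1
  refine ⟨fun j => ⟨c j, hc j⟩, rfl, ?_⟩
  exact hr.unique (red_comb h.red fun j => ⟨c j, hc j⟩)

theorem IsFrame.redSub_span [Fintype ι] (h : R.IsFrame v vb) :
    R.redSub (span K (Set.range v)) = span k (Set.range vb) := by
  apply le_antisymm
  · intro fb hfb
    obtain ⟨f, hf, hr⟩ := mem_redSub.1 hfb
    obtain ⟨c, -, rfl⟩ := h.exists_comb_of_red hf hr
    exact Submodule.sum_mem _ fun j _ =>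
      Submodule.smul_mem _ _ (Submodule.subset_span (Set.mem_range_self j))
  · rw [Submodule.span_le]
    rintro _ ⟨j, rfl⟩
    exact mem_redSub.2 ⟨v j, Submodule.subset_span (Set.mem_range_self j), h.red j⟩

theorem IsFrame.exists_scale [Fintype ι] (h : R.IsFrame v vb) {f : F}
    (hf : f ∈ span K (Set.range v)) (hf0 : f ≠ 0) :
    ∃ c : K, c ≠ 0 ∧ ∃ fb : Fk, fb ≠ 0 ∧ R.Red (c • f) fb := by
  obtain ⟨g, rfl⟩ := (Submodule.mem_span_range_iff_exists_fun K).1 hf
  have hne : ∃ j ∈ Finset.univ, g j ≠ 0 := by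
    by_contra hcon
    push Not at hcon
    apply hf0
    exact Finset.sum_eq_zero fun j hj => by rw [hcon j hj, zero_smul]
  obtain ⟨j0, hj0, h0, c, hc1, -, -, hsum⟩ := h.exists_scale_sum Finset.univ g hne
  refine ⟨(g j0)⁻¹, inv_ne_zero h0, _, h.sum_res_ne_zero Finset.univ c hj0 hc1, ?_⟩
  rw [hsum]
  exact h.red_sum Finset.univ c

/-- Gaussian elimination with pivots of maximal absolute value. -/
theorem IsFrame.exists_subframe_aux [Fintype ι] (h : R.IsFrame v vb) (T : Finset ι) :
    ∀ W : Submodule K F, W ≤ span K (v '' (T : Set ι)) →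
    ∃ (d : ℕ) (c : Fin d → ι → R.A), (∀ a, ∀ j ∉ T, c a j = 0) ∧
      span K (Set.range fun a => R.comb v (c a)) = W ∧
      LinearIndependent k (fun a => R.combk vb (c a)) := by
  classical
  induction T using Finset.strongInduction with
  | H T ih =>
    intro W hW
    by_cases hbot : W = ⊥
    · refine ⟨0, Fin.elim0, fun a => a.elim0, ?_, linearIndependent_empty_type⟩
      rw [hbot, Set.range_eq_empty, Submodule.span_empty]
    obtain ⟨x, hxW, hx0⟩ := Submodule.exists_mem_ne_zero_of_ne_bot hbot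
    obtain ⟨g, hg⟩ := Submodule.mem_span_image_finset_iff_exists_fun' K |>.1 (hW hxW)
    have hne : ∃ j ∈ T, g j ≠ 0 := by
      by_contra hcon
      push Not at hcon
      apply hx0
      rw [← hg]
      exact Finset.sum_eq_zero fun j hj => by rw [hcon j hj, zero_smul]
    obtain ⟨j0, hj0, h0, c0, hc1, hc0, -, hsum⟩ := h.exists_scale_sum T g hne
    -- sums over `univ` of coefficient families supported on a finset
    have hcomb : ∀ (T' : Finset ι) (c : ι → R.A), (∀ j ∉ T', c j = 0) →
        R.comb v c = ∑ j ∈ T', ((c j : R.A) : K) • v j := by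
      intro T' c hc
      refine (Finset.sum_subset (Finset.subset_univ T') fun j _ hj => ?_).symm
      rw [hc j hj, ZeroMemClass.coe_zero, zero_smul]
    have hcombk : ∀ (T' : Finset ι) (c : ι → R.A), (∀ j ∉ T', c j = 0) →
        R.combk vb c = ∑ j ∈ T', R.res (c j) • vb j := by
      intro T' c hc
      refine (Finset.sum_subset (Finset.subset_univ T') fun j _ hj => ?_).symm
      rw [hc j hj, map_zero, zero_smul]
    have hw : R.comb v c0 ∈ W := by
      rw [hcomb T c0 hc0, ← hsum, hg]
      exact W.smul_mem _ hxW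
    obtain ⟨d', c', hc'0, hc'span, hc'ind⟩ :=
      ih (T.erase j0) (Finset.erase_ssubset hj0) (W ⊓ span K (v '' ((T.erase j0 : Finset ι) : Set ι)))
        inf_le_right
    refine ⟨d' + 1, Fin.cons c0 c', ?_, ?_, ?_⟩
    · intro a
      refine Fin.cases ?_ (fun a => ?_) a
      · simpa using hc0
      · intro j hj
        simp only [Fin.cons_succ]
        exact hc'0 a j fun hmem => hj (Finset.mem_of_mem_erase hmem)
    · have hfun : (fun a => R.comb v ((Fin.cons c0 c' : Fin (d' + 1) → ι → R.A) a)) =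
          Fin.cons (R.comb v c0) (fun a => R.comb v (c' a)) := by
        funext a
        refine Fin.cases ?_ (fun a => ?_) a <;> simp
      rw [hfun, Fin.range_cons, Submodule.span_insert, hc'span]
      apply le_antisymm
      · exact sup_le ((Submodule.span_singleton_le_iff_mem _ _).2 hw) inf_le_left
      · intro y hy
        obtain ⟨gy, hgy⟩ := Submodule.mem_span_image_finset_iff_exists_fun' K |>.1 (hW hy)
        have hdecomp : y = gy j0 • R.comb v c0 + (y - gy j0 • R.comb v c0) := by abel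
        rw [hdecomp]
        refine Submodule.add_mem_sup
          (Submodule.smul_mem _ _ (Submodule.mem_span_singleton_self _)) ⟨?_, ?_⟩
        · exact W.sub_mem hy (W.smul_mem _ hw)
        · have hexp : y - gy j0 • R.comb v c0 =
              ∑ j ∈ T.erase j0, (gy j - gy j0 * ((c0 j : R.A) : K)) • v j := by
            rw [hcomb T c0 hc0, ← hgy, ← Finset.add_sum_erase T _ hj0,
              ← Finset.add_sum_erase T (fun j => ((c0 j : R.A) : K) • v j) hj0, hc1]
            simp only [sub_smul, Finset.sum_sub_distrib, smul_add, Finset.smul_sum, smul_smul,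
              OneMemClass.coe_one, one_smul]
            abel
          rw [SetLike.mem_coe, hexp]
          exact Submodule.sum_mem _ fun j hj => Submodule.smul_mem _ _
            (Submodule.subset_span ⟨j, hj, rfl⟩)
    · have hfun : (fun a => R.combk vb ((Fin.cons c0 c' : Fin (d' + 1) → ι → R.A) a)) =
          Fin.cons (R.combk vb c0) (fun a => R.combk vb (c' a)) := by
        funext a
        refine Fin.cases ?_ (fun a => ?_) a <;> simp
      rw [hfun, linearIndependent_finCons]
      refine ⟨hc'ind, fun hmem => ?_⟩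
      have hle : span k (Set.range fun a => R.combk vb (c' a)) ≤
          span k (vb '' ((T.erase j0 : Finset ι) : Set ι)) := by
        rw [Submodule.span_le]
        rintro _ ⟨a, rfl⟩
        show R.combk vb (c' a) ∈ _
        rw [hcombk (T.erase j0) (c' a) (hc'0 a)]
        exact Submodule.sum_mem _ fun j hj => Submodule.smul_mem _ _
          (Submodule.subset_span ⟨j, hj, rfl⟩)
      have h1 := hle hmem
      rw [hcombk T c0 hc0, ← Finset.add_sum_erase T _ hj0, hc1, map_one, one_smul] at h1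
      have h2 : ∑ j ∈ T.erase j0, R.res (c0 j) • vb j ∈
          span k (vb '' ((T.erase j0 : Finset ι) : Set ι)) :=
        Submodule.sum_mem _ fun j hj => Submodule.smul_mem _ _
          (Submodule.subset_span ⟨j, hj, rfl⟩)
      have h3 : vb j0 ∈ span k (vb '' ((T.erase j0 : Finset ι) : Set ι)) :=
        (Submodule.add_mem_iff_left _ h2).1 h1
      exact h.indep.notMem_span_image (by simp) h3

/-- every subspace of the span of a frame has a frame (Gaussian elimination with pivots of maximal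
absolute value, or: a finitely generated torsion free module over a valuation ring is free) -/
theorem IsFrame.exists_subframe [Fintype ι] (h : R.IsFrame v vb) {W : Submodule K F}
    (hW : W ≤ span K (Set.range v)) :
    ∃ (d : ℕ) (c : Fin d → ι → R.A), span K (Set.range fun a => R.comb v (c a)) = W ∧
      LinearIndependent k (fun a => R.combk vb (c a)) := by
  obtain ⟨d, c, -, h1, h2⟩ := h.exists_subframe_aux Finset.univ W (by simpa using hW)
  exact ⟨d, c, h1, h2⟩

theorem IsFrame.finrank_redSub [Fintype ι] (h : R.IsFrame v vb) {W : Submodule K F}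
    (hW : W ≤ span K (Set.range v)) : finrank k (R.redSub W) = finrank K W := by
  obtain ⟨d, c, h1, h2⟩ := h.exists_subframe hW
  have hfr : R.IsFrame (fun a => R.comb v (c a)) (fun a => R.combk vb (c a)) :=
    ⟨fun a => red_comb h.red (c a), h2⟩
  rw [← h1, hfr.redSub_span, finrank_span_eq_card h2, finrank_span_eq_card hfr.linearIndependent]

/-- a family of elements of `W` whose reductions form a basis of a space of dimension `dim W` -/
theorem isFrame_span_eq {d : ℕ} {w : Fin d → F} {wb : Fin d → Fk} (h : R.IsFrame w wb)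
    {W : Submodule K F} (hw : ∀ a, w a ∈ W) (hd : finrank K W ≤ d) [Module.Finite K W] :
    span K (Set.range w) = W := by
  have hle : span K (Set.range w) ≤ W := by
    rw [Submodule.span_le]
    rintro _ ⟨a, rfl⟩
    exact hw a
  refine Submodule.eq_of_le_of_finrank_le hle ?_
  rw [finrank_span_eq_card h.linearIndependent, Fintype.card_fin]
  exact hd

end V1

end Fermat.Agent.S19.KM.RedData
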