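import Fermat.Agent.S19.KM.Red.Defs

/-!
# S19 / KM route, layer [V], section V0: calculus of `Red` and `redSub`.   Mathlib only.
-/

set_option autoImplicit false

noncomputable section

namespace Fermat.Agent.S19.KM.RedData

open Module Submodule

variable {K F k Fk : Type*} [Field K] [Field F] [Algebra K F] [Field k] [Field Fk] [Algebra k Fk]
variable (R : RedData K F k Fk)

section V0
variable {R}

theorem Red.unique {f : F} {fb fb' : Fk} (h : R.Red f fb) (h' : R.Red f fb') : fb = fb' := by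
  obtain ⟨h1, rfl⟩ := h
  obtain ⟨h2, rfl⟩ := h'
  rfl

theorem Red.zero : R.Red 0 0 := ⟨R.O.zero_mem, map_zero R.red⟩

theorem Red.one : R.Red 1 1 := ⟨R.O.one_mem, map_one R.red⟩

theorem Red.add {f g : F} {fb gb : Fk} (hf : R.Red f fb) (hg : R.Red g gb) :
    R.Red (f + g) (fb + gb) := by
  obtain ⟨h1, rfl⟩ := hf
  obtain ⟨h2, rfl⟩ := hg
  exact ⟨R.O.add_mem _ _ h1 h2, map_add R.red ⟨f, h1⟩ ⟨g, h2⟩⟩

theorem Red.sub {f g : F} {fb gb : Fk} (hf : R.Red f fb) (hg : R.Red g gb) :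
    R.Red (f - g) (fb - gb) := by
  obtain ⟨h1, rfl⟩ := hf
  obtain ⟨h2, rfl⟩ := hg
  exact ⟨R.O.toSubring.sub_mem h1 h2, map_sub R.red ⟨f, h1⟩ ⟨g, h2⟩⟩

theorem Red.mul {f g : F} {fb gb : Fk} (hf : R.Red f fb) (hg : R.Red g gb) :
    R.Red (f * g) (fb * gb) := by
  obtain ⟨h1, rfl⟩ := hf
  obtain ⟨h2, rfl⟩ := hg
  exact ⟨R.O.mul_mem _ _ h1 h2, map_mul R.red ⟨f, h1⟩ ⟨g, h2⟩⟩

theorem Red.algebraMap (a : R.A) : R.Red (algebraMap K F (a : K)) (algebraMap k Fk (R.res a)) :=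
  ⟨_, R.red_algebraMap a⟩

theorem Red.smul (a : R.A) {f : F} {fb : Fk} (hf : R.Red f fb) :
    R.Red ((a : K) • f) (R.res a • fb) := by
  rw [Algebra.smul_def, Algebra.smul_def]
  exact (Red.algebraMap a).mul hf

theorem Red.ne_zero {f : F} {fb : Fk} (hf : R.Red f fb) (h0 : fb ≠ 0) : f ≠ 0 := by
  rintro rfl
  exact h0 (hf.unique Red.zero)

theorem Red.inv {f : F} {fb : Fk} (hf : R.Red f fb) (h0 : fb ≠ 0) : R.Red f⁻¹ fb⁻¹ := by
  have hf0 : f ≠ 0 := hf.ne_zero h0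
  obtain ⟨h1, rfl⟩ := hf
  have hu : IsUnit (⟨f, h1⟩ : R.O) := by
    by_contra hn
    exact h0 ((R.red_eq_zero _).2 hn)
  obtain ⟨u, hu⟩ := hu
  have hval : ((u⁻¹ : (R.O)ˣ) : R.O).1 = f⁻¹ := by
    have h2 : ((u⁻¹ : (R.O)ˣ) : R.O) * (u : R.O) = 1 := u.inv_mul
    have h3 : ((u⁻¹ : (R.O)ˣ) : R.O).1 * f = 1 := by
      have := congrArg Subtype.val h2
      rw [hu] at this
      exact this
    exact eq_inv_of_mul_eq_one_left h3
  have hmem : f⁻¹ ∈ R.O := hval ▸ ((u⁻¹ : (R.O)ˣ) : R.O).2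
  refine ⟨hmem, ?_⟩
  have h4 : R.red ⟨f⁻¹, hmem⟩ * R.red ⟨f, h1⟩ = 1 := by
    rw [← map_mul]
    have : (⟨f⁻¹, hmem⟩ : R.O) * ⟨f, h1⟩ = 1 := Subtype.ext (inv_mul_cancel₀ hf0)
    rw [this, map_one]
  exact eq_inv_of_mul_eq_one_left h4

theorem Red.sum {ι : Type*} (t : Finset ι) {f : ι → F} {fb : ι → Fk}
    (h : ∀ i ∈ t, R.Red (f i) (fb i)) : R.Red (∑ i ∈ t, f i) (∑ i ∈ t, fb i) := by
  classical
  induction t using Finset.induction_on with
  | empty => simpa using Red.zero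
  | insert a s ha ih =>
    rw [Finset.sum_insert ha, Finset.sum_insert ha]
    exact (h a (Finset.mem_insert_self a s)).add
      (ih fun i hi => h i (Finset.mem_insert_of_mem hi))

theorem red_comb {ι : Type*} [Fintype ι] {v : ι → F} {vb : ι → Fk} (h : ∀ j, R.Red (v j) (vb j))
    (c : ι → R.A) : R.Red (R.comb v c) (R.combk vb c) :=
  Red.sum _ fun j _ => (h j).smul (c j)

theorem mem_redSub {W : Submodule K F} {fb : Fk} : fb ∈ R.redSub W ↔ ∃ f ∈ W, R.Red f fb := by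
  constructor
  · intro h
    induction h using Submodule.span_induction with
    | mem x hx => exact hx
    | zero => exact ⟨0, W.zero_mem, Red.zero⟩
    | add x y _ _ hx hy =>
      obtain ⟨f, hf, hfr⟩ := hx
      obtain ⟨g, hg, hgr⟩ := hy
      exact ⟨f + g, W.add_mem hf hg, hfr.add hgr⟩
    | smul c x _ hx =>
      obtain ⟨f, hf, hfr⟩ := hx
      obtain ⟨a, rfl⟩ := R.res_surjective c
      exact ⟨(a : K) • f, W.smul_mem _ hf, hfr.smul a⟩
  · intro h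
    exact Submodule.subset_span h

theorem redSub_mono {W W' : Submodule K F} (h : W ≤ W') : R.redSub W ≤ R.redSub W' := by
  intro fb hfb
  obtain ⟨f, hf, hr⟩ := mem_redSub.1 hfb
  exact mem_redSub.2 ⟨f, h hf, hr⟩

theorem redSub_mul_le (W W' : Submodule K F) :
    R.redSub W * R.redSub W' ≤ R.redSub (W * W') := by
  rw [Submodule.mul_le]
  intro m hm n hn
  obtain ⟨f, hf, hfr⟩ := mem_redSub.1 hm
  obtain ⟨g, hg, hgr⟩ := mem_redSub.1 hn
  exact mem_redSub.2 ⟨f * g, Submodule.mul_mem_mul hf hg, hfr.mul hgr⟩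

theorem redSub_colon_le (U W W' : Submodule K F) :
    R.redSub (colon U W W') ≤ colon (R.redSub U) (R.redSub W) (R.redSub W') := by
  intro fb hfb
  obtain ⟨f, hf, hfr⟩ := mem_redSub.1 hfb
  refine mem_colon.2 ⟨mem_redSub.2 ⟨f, hf.1, hfr⟩, fun yb hyb => ?_⟩
  obtain ⟨y, hy, hyr⟩ := mem_redSub.1 hyb
  exact mem_redSub.2 ⟨f * y, hf.2 y hy, hfr.mul hyr⟩

/-- for `c ∈ K` either `c ∈ A` or `c⁻¹ ∈ A` is a non-unit; residue field elements lift -/
theorem exists_res_eq (c : k) : ∃ a : R.A, R.res a = c := R.res_surjective c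

end V0

end Fermat.Agent.S19.KM.RedData
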