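import Mathlib
import Fermat.Agent.S19.KM.Colon

/-!
# S19 / KM route: valued linear algebra and regular families (definitions)

`RedData K F k Fk` : a valuation ring `A` of `K` with residue field `k`, a valuation ring `O` of the
`K`-algebra `F` (a field) lying over `A`, with residue field (a subfield of) `Fk`.
In the application `K = ℚ̄`, `F = ℚ̄(X₀(N))`, `O` = Gauss valuation ring, `Fk` = function field of the
reduced curve.  Mathlib only.   Owner: helper19.
-/

set_option autoImplicit false

noncomputable section

namespace Fermat.Agent.S19.KM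

open Module

/-- reduction data -/
structure RedData (K F k Fk : Type*) [Field K] [Field F] [Algebra K F] [Field k] [Field Fk]
    [Algebra k Fk] where
  A : ValuationSubring K
  O : ValuationSubring F
  res : A →+* k
  red : O →+* Fk
  res_surjective : Function.Surjective res
  res_eq_zero : ∀ a : A, res a = 0 ↔ ¬ IsUnit a
  red_eq_zero : ∀ f : O, red f = 0 ↔ ¬ IsUnit f
  algebraMap_mem : ∀ a : K, algebraMap K F a ∈ O ↔ a ∈ A
  red_algebraMap : ∀ a : A,
    red ⟨algebraMap K F (a : K), (algebraMap_mem (a : K)).2 a.2⟩ = algebraMap k Fk (res a)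

variable {K F k Fk : Type*} [Field K] [Field F] [Algebra K F] [Field k] [Field Fk] [Algebra k Fk]

namespace RedData

variable (R : RedData K F k Fk)

/-- `f ∈ O` and `f` reduces to `fb` -/
def Red (f : F) (fb : Fk) : Prop := ∃ h : f ∈ R.O, R.red ⟨f, h⟩ = fb

/-- the reduction `red (W ∩ O)` of a `K`-subspace of `F`, as a set -/
def redSet (W : Submodule K F) : Set Fk := {fb | ∃ f ∈ W, R.Red f fb}

/-- the reduction `red (W ∩ O)` of a `K`-subspace of `F` (the `k`-span of `redSet`, which is already
a subspace: `RedData.redSub_coe`) -/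
def redSub (W : Submodule K F) : Submodule k Fk := Submodule.span k (R.redSet W)

/-- a frame: elements of `O` with `k`-linearly independent reductions -/
structure IsFrame {ι : Type*} (v : ι → F) (vb : ι → Fk) : Prop where
  red : ∀ j, R.Red (v j) (vb j)
  indep : LinearIndependent k vb

/-- `∑ c_j v_j` -/
def comb {ι : Type*} [Fintype ι] (v : ι → F) (c : ι → R.A) : F := ∑ j, ((c j : R.A) : K) • v j

/-- `∑ res(c_j) vb_j` -/
def combk {ι : Type*} [Fintype ι] (vb : ι → Fk) (c : ι → R.A) : Fk := ∑ j, R.res (c j) • vb j

/-- all elements of `𝒮` have constant reduction on `Ω` -/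
def ConstRed {Ω : Type*} (𝒮 : Subalgebra R.A (Ω → R.A)) : Prop :=
  ∀ s ∈ 𝒮, ∀ ω ω' : Ω, R.res (s ω) = R.res (s ω')

/-- The family of subspaces `W ω ≤ span v` is `𝒮`-regular: it has a basis whose coordinates in the
frame `v` are functions in `𝒮` and whose reductions are linearly independent. -/
def IsReg {Ω ι : Type*} [Fintype ι] (𝒮 : Subalgebra R.A (Ω → R.A)) (v : ι → F) (vb : ι → Fk)
    (W : Ω → Submodule K F) : Prop :=
  ∃ (d : ℕ) (s : Fin d → ι → Ω → R.A), (∀ a j, s a j ∈ 𝒮) ∧
    ∀ ω, Submodule.span K (Set.range fun a => R.comb v fun j => s a j ω) = W ω ∧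
      LinearIndependent k (fun a => R.combk vb fun j => s a j ω)

/-- `W` is the graph over the chart `S` of the matrix `u` (only the entries `u b j`, `b ∈ S`,
`j ∉ S` matter). -/
def IsGraph {ι : Type*} [Fintype ι] [DecidableEq ι] (v : ι → F) (S : Finset ι) (u : ι → ι → R.A)
    (W : Submodule K F) : Prop :=
  W = Submodule.span K (Set.range fun b : S => v b + ∑ j ∈ Sᶜ, ((u b j : R.A) : K) • v j)

open Classical in
/-- graph coordinates (zero if `S` is not an integral chart for `W`) -/
def gcoord {ι : Type*} [Fintype ι] [DecidableEq ι] (v : ι → F) (S : Finset ι)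
    (W : Submodule K F) (b j : ι) : R.A :=
  if h : ∃ u, R.IsGraph v S u W then h.choose b j else 0

end RedData

end Fermat.Agent.S19.KM
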