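import Fermat.Agent.S19.KM.Red.Frame

/-!
# S19 / KM route, layer V2 : charts (graph coordinates) of subspaces of the span of a frame

Mathlib only (plus layers V0, V1).
-/

set_option autoImplicit false

noncomputable section

namespace Fermat.Agent.S19.KM.Graph

open Module Submodule

/-! ### linear algebra over a field -/

variable {𝕜 V ι : Type*} [Field 𝕜] [AddCommGroup V] [Module 𝕜 V] [Fintype ι] [DecidableEq ι]

/-- the generators of the graph of `u` over the chart `S` -/
def gvec (e : ι → V) (S : Finset ι) (u : ι → ι → 𝕜) (b : S) : V :=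
  e b + ∑ j ∈ Sᶜ, u b j • e j

/-- the coordinates of `gvec` -/
def gcoef (S : Finset ι) (u : ι → ι → 𝕜) (b : S) (j : ι) : 𝕜 :=
  if j ∈ S then (if j = b then 1 else 0) else u b j

omit [Fintype ι] in
theorem gcoef_of_notMem (S : Finset ι) (u : ι → ι → 𝕜) (b : S) {j : ι} (hj : j ∉ S) :
    gcoef S u b j = u b j := by
  rw [gcoef, if_neg hj]

omit [Fintype ι] in
theorem gcoef_of_mem (S : Finset ι) (u : ι → ι → 𝕜) (b : S) {j : ι} (hj : j ∈ S) :
    gcoef S u b j = if j = b then 1 else 0 := by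
  rw [gcoef, if_pos hj]

theorem gvec_eq_sum (e : ι → V) (S : Finset ι) (u : ι → ι → 𝕜) (b : S) :
    gvec e S u b = ∑ j, gcoef S u b j • e j := by
  rw [← Finset.sum_add_sum_compl S, gvec]
  congr 1
  · rw [Finset.sum_eq_single (b : ι)]
    · rw [gcoef_of_mem S u b b.2, if_pos rfl, one_smul]
    · intro j hj hjb
      rw [gcoef_of_mem S u b hj, if_neg hjb, zero_smul]
    · intro hb
      exact absurd b.2 hb
  · refine Finset.sum_congr rfl fun j hj => ?_
    rw [gcoef_of_notMem S u b (Finset.mem_compl.mp hj)]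

theorem sum_smul_gvec (e : ι → V) (S : Finset ι) (u : ι → ι → 𝕜) (x : S → 𝕜) :
    ∑ b, x b • gvec e S u b = ∑ j, (∑ b, x b * gcoef S u b j) • e j := by
  simp_rw [gvec_eq_sum, Finset.smul_sum, smul_smul, Finset.sum_smul]
  exact Finset.sum_comm

omit [Fintype ι] in
theorem sum_mul_gcoef_of_mem (S : Finset ι) (u : ι → ι → 𝕜) (x : S → 𝕜) {j : ι} (hj : j ∈ S) :
    ∑ b, x b * gcoef S u b j = x ⟨j, hj⟩ := by
  rw [Finset.sum_eq_single (⟨j, hj⟩ : S)]
  · rw [gcoef_of_mem S u _ hj, if_pos rfl, mul_one]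
  · intro b _ hb
    have : j ≠ b := fun h => hb (Subtype.ext h.symm)
    rw [gcoef_of_mem S u _ hj, if_neg this, mul_zero]
  · intro h
    exact absurd (Finset.mem_univ _) h

omit [Fintype ι] in
theorem sum_mul_gcoef_of_notMem (S : Finset ι) (u : ι → ι → 𝕜) (x : S → 𝕜) {j : ι} (hj : j ∉ S) :
    ∑ b, x b * gcoef S u b j = ∑ b, x b * u b j :=
  Finset.sum_congr rfl fun b _ => by rw [gcoef_of_notMem S u b hj]

theorem gvec_congr (e : ι → V) (S : Finset ι) {u u' : ι → ι → 𝕜}
    (h : ∀ b ∈ S, ∀ j ∉ S, u b j = u' b j) : gvec e S u = gvec e S u' := by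
  funext b
  rw [gvec, gvec]
  congr 1
  exact Finset.sum_congr rfl fun j hj => by rw [h b b.2 j (Finset.mem_compl.mp hj)]

theorem gvec_mem_span (e : ι → V) (S : Finset ι) (u : ι → ι → 𝕜) (b : S) :
    gvec e S u b ∈ span 𝕜 (Set.range e) := by
  rw [gvec_eq_sum]
  exact Submodule.sum_mem _ fun j _ => Submodule.smul_mem _ _ (subset_span ⟨j, rfl⟩)

theorem linearIndependent_gvec {e : ι → V} (he : LinearIndependent 𝕜 e) (S : Finset ι)
    (u : ι → ι → 𝕜) : LinearIndependent 𝕜 (gvec e S u) := by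
  rw [Fintype.linearIndependent_iff]
  intro x hx b
  rw [sum_smul_gvec] at hx
  have := Fintype.linearIndependent_iff.mp he _ hx b
  rwa [sum_mul_gcoef_of_mem S u x b.2] at this

theorem eq_of_gvec_mem_span {e : ι → V} (he : LinearIndependent 𝕜 e) {S : Finset ι}
    {u u' : ι → ι → 𝕜} {b : S} (hb : gvec e S u b ∈ span 𝕜 (Set.range (gvec e S u'))) :
    ∀ j ∉ S, u b j = u' b j := by
  obtain ⟨x, hx⟩ := (Submodule.mem_span_range_iff_exists_fun 𝕜).mp hb
  rw [sum_smul_gvec, gvec_eq_sum] at hx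
  have hc := Fintype.linearIndependent_iffₛ.mp he _ _ hx
  have hx' : ∀ b' : S, x b' = if b' = b then 1 else 0 := by
    intro b'
    have := hc b'
    rw [sum_mul_gcoef_of_mem S u' x b'.2, gcoef_of_mem S u b b'.2] at this
    rw [this]
    by_cases h : b' = b
    · rw [if_pos h, if_pos (congrArg Subtype.val h)]
    · rw [if_neg h, if_neg fun h' => h (Subtype.ext h')]
  intro j hj
  have := hc j
  rw [sum_mul_gcoef_of_notMem S u' x hj, gcoef_of_notMem S u b hj,
    Finset.sum_eq_single b] at this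
  · rw [← this, hx' b, if_pos rfl, one_mul]
  · intro b' _ hb'
    rw [hx' b', if_neg hb', zero_mul]
  · intro h
    exact absurd (Finset.mem_univ _) h

theorem eq_of_span_gvec_eq {e : ι → V} (he : LinearIndependent 𝕜 e) {S : Finset ι}
    {u u' : ι → ι → 𝕜}
    (h : span 𝕜 (Set.range (gvec e S u)) = span 𝕜 (Set.range (gvec e S u'))) :
    ∀ b ∈ S, ∀ j ∉ S, u b j = u' b j := by
  intro b hb
  refine eq_of_gvec_mem_span he (b := ⟨b, hb⟩) ?_
  rw [← h]
  exact subset_span ⟨_, rfl⟩

/-- an element of a graph whose coordinates in the chart vanish is zero -/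
theorem eq_zero_of_mem_span_gvec {e : ι → V} (he : LinearIndependent 𝕜 e) {S : Finset ι}
    {u : ι → ι → 𝕜} {c : ι → 𝕜} (hc : ∑ j, c j • e j ∈ span 𝕜 (Set.range (gvec e S u)))
    (h0 : ∀ j ∈ S, c j = 0) : ∑ j, c j • e j = 0 := by
  obtain ⟨x, hx⟩ := (Submodule.mem_span_range_iff_exists_fun 𝕜).mp hc
  have hx2 := hx
  rw [sum_smul_gvec] at hx2
  have hcoord := Fintype.linearIndependent_iffₛ.mp he _ _ hx2
  have hx0 : ∀ b : S, x b = 0 := by
    intro b
    have := hcoord b
    rw [sum_mul_gcoef_of_mem S u x b.2] at this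
    rw [this, h0 b b.2]
  rw [← hx]
  exact Finset.sum_eq_zero fun b _ => by rw [hx0 b, zero_smul]

/-- criterion for a subspace to be the graph of `u` over the chart `S` -/
theorem eq_span_gvec_of {e : ι → V} {W : Submodule 𝕜 V} (hW : W ≤ span 𝕜 (Set.range e))
    {S : Finset ι} {u : ι → ι → 𝕜} (hmem : ∀ b : S, gvec e S u b ∈ W)
    (hdisj : ∀ c : ι → 𝕜, ∑ j, c j • e j ∈ W → (∀ j ∈ S, c j = 0) → ∑ j, c j • e j = 0) :
    W = span 𝕜 (Set.range (gvec e S u)) := by
  apply le_antisymm
  · intro w hw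
    obtain ⟨x, rfl⟩ := (Submodule.mem_span_range_iff_exists_fun 𝕜).mp (hW hw)
    have hsum : ∑ b : S, x b • gvec e S u b ∈ W :=
      W.sum_mem fun b _ => W.smul_mem _ (hmem b)
    have hexp : ∑ j, (x j - ∑ b : S, x b * gcoef S u b j) • e j =
        ∑ j, x j • e j - ∑ b : S, x b • gvec e S u b := by
      simp_rw [sub_smul, Finset.sum_sub_distrib]
      rw [← sum_smul_gvec e S u fun b => x b]
    have hzero := hdisj (fun j => x j - ∑ b : S, x b * gcoef S u b j) (by
      rw [hexp]
      exact W.sub_mem hw hsum) (by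
      intro j hj
      rw [sum_mul_gcoef_of_mem S u (fun b => x b) hj, sub_self])
    rw [hexp, sub_eq_zero] at hzero
    rw [hzero]
    exact Submodule.sum_mem _ fun b _ => Submodule.smul_mem _ _ (subset_span ⟨b, rfl⟩)
  · rw [span_le]
    rintro _ ⟨b, rfl⟩
    exact hmem b

/-- every subspace of the span of a linearly independent family is a graph over some chart -/
theorem exists_span_gvec_eq {e : ι → V} {W : Submodule 𝕜 V}
    (hW : W ≤ span 𝕜 (Set.range e)) :
    ∃ (S : Finset ι) (u : ι → ι → 𝕜), W = span 𝕜 (Set.range (gvec e S u)) := by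
  classical
  let P : Finset ι → Prop := fun T =>
    ∀ c : ι → 𝕜, ∑ j, c j • e j ∈ W → (∀ j ∉ T, c j = 0) → c = 0
  have hP0 : P ∅ := fun c _ hc => funext fun j => hc j (Finset.notMem_empty j)
  obtain ⟨T, -, hT⟩ := Finite.exists_le_maximal hP0
  have hPT : P T := hT.prop
  have key : ∀ b ∉ T, ∃ c : ι → 𝕜, ∑ j, c j • e j ∈ W ∧ (∀ j ∉ insert b T, c j = 0) ∧ c b ≠ 0 := by
    intro b hb
    have hnot : ¬ P (insert b T) := by
      intro hP
      have := hT.le_of_ge hP (Finset.subset_insert b T)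
      exact hb (this (Finset.mem_insert_self b T))
    simp only [P, not_forall] at hnot
    obtain ⟨c, hcW, hc0, hc⟩ := hnot
    refine ⟨c, hcW, hc0, fun hcb => hc (hPT c hcW fun j hj => ?_)⟩
    by_cases hjb : j = b
    · rw [hjb, hcb]
    · exact hc0 j (by rw [Finset.mem_insert, not_or]; exact ⟨hjb, hj⟩)
  choose! c hcW hc0 hcb using key
  refine ⟨Tᶜ, fun b j => (c b b)⁻¹ * c b j, ?_⟩
  set u : ι → ι → 𝕜 := fun b j => (c b b)⁻¹ * c b j with hu
  have hmem : ∀ b : (Tᶜ : Finset ι), gvec e Tᶜ u b ∈ W := by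
    intro b
    have hbT : (b : ι) ∉ T := Finset.mem_compl.mp b.2
    have : gvec e Tᶜ u b = (c b b)⁻¹ • ∑ j, c b j • e j := by
      rw [gvec_eq_sum, Finset.smul_sum]
      refine Finset.sum_congr rfl fun j _ => ?_
      rw [smul_smul]
      congr 1
      by_cases hj : j ∈ Tᶜ
      · rw [gcoef_of_mem _ _ _ hj]
        by_cases hjb : j = b
        · rw [if_pos hjb, hjb, inv_mul_cancel₀ (hcb b hbT)]
        · rw [if_neg hjb, hc0 b hbT j (by
            rw [Finset.mem_insert, not_or]; exact ⟨hjb, Finset.mem_compl.mp hj⟩), mul_zero]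
      · rw [gcoef_of_notMem _ _ _ hj]
    rw [this]
    exact W.smul_mem _ (hcW b hbT)
  refine eq_span_gvec_of hW hmem fun c' hc' h0 => ?_
  rw [hPT c' hc' fun j hj => h0 j (Finset.mem_compl.mpr hj)]
  simp

end Fermat.Agent.S19.KM.Graph

namespace Fermat.Agent.S19.KM.RedData

open Module Submodule Fermat.Agent.S19.KM.Graph

variable {K F k Fk : Type*} [Field K] [Field F] [Algebra K F] [Field k] [Field Fk] [Algebra k Fk]
variable {R : RedData K F k Fk}
variable {ι : Type*} [Fintype ι] [DecidableEq ι] {v : ι → F} {vb : ι → Fk}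

theorem isGraph_iff_gvec {S : Finset ι} {u : ι → ι → R.A} {W : Submodule K F} :
    R.IsGraph v S u W ↔ W = span K (Set.range (gvec v S fun b j => ((u b j : R.A) : K))) :=
  Iff.rfl

/-- the generators of an integral graph form a frame -/
theorem IsFrame.isFrame_gvec (h : R.IsFrame v vb) (S : Finset ι) (u : ι → ι → R.A) :
    R.IsFrame (gvec v S fun b j => ((u b j : R.A) : K)) (gvec vb S fun b j => R.res (u b j)) where
  red b := (h.red b).add (Red.sum _ fun j _ => (h.red j).smul (u b j))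
  indep := linearIndependent_gvec h.indep S _

/-- **Lifting of charts**: a chart of the reduction is an integral chart. -/
theorem IsFrame.exists_isGraph_of_redSub (h : R.IsFrame v vb) {W : Submodule K F}
    (hW : W ≤ span K (Set.range v)) {S : Finset ι} {ub : ι → ι → k}
    (e : R.redSub W = span k (Set.range (gvec vb S ub))) :
    ∃ u, R.IsGraph v S u W ∧ ∀ b ∈ S, ∀ j ∉ S, R.res (u b j) = ub b j := by
  classical
  -- lift the generators
  have h1 : ∀ b : S, ∃ c : ι → R.A, R.comb v c ∈ W ∧ gvec vb S ub b = R.combk vb c := by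
    intro b
    have hb : gvec vb S ub b ∈ R.redSub W := by rw [e]; exact subset_span ⟨b, rfl⟩
    obtain ⟨f, hfW, hr⟩ := mem_redSub.mp hb
    obtain ⟨c, hc1, hc2⟩ := h.exists_comb_of_red (hW hfW) hr
    exact ⟨c, hc1 ▸ hfW, hc2⟩
  choose c hcW hcb using h1
  have hres : ∀ (b : S) (j : ι), R.res (c b j) = gcoef S ub b j := by
    intro b j
    have := hcb b
    rw [gvec_eq_sum, combk] at this
    exact (Fintype.linearIndependent_iffₛ.mp h.indep _ _ this j).symm
  -- the square matrix
  let C : Matrix S S R.A := fun b b' => c b b'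
  have hCmap : C.map R.res = 1 := by
    ext b b'
    rw [Matrix.map_apply, hres b b', gcoef_of_mem S ub b b'.2, Matrix.one_apply]
    by_cases hbb : b = b'
    · rw [if_pos hbb, if_pos (congrArg Subtype.val hbb.symm)]
    · rw [if_neg hbb, if_neg fun h' => hbb (Subtype.ext h'.symm)]
  have hdet : IsUnit C.det := by
    by_contra hnu
    have h0 := (R.res_eq_zero C.det).mpr hnu
    rw [RingHom.map_det, RingHom.mapMatrix_apply, hCmap, Matrix.det_one] at h0
    exact one_ne_zero h0
  have hPC : C⁻¹ * C = 1 := Matrix.nonsing_inv_mul C hdet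
  have hPmap : (C⁻¹).map R.res = 1 := by
    have := congrArg (fun M : Matrix S S R.A => M.map R.res) hPC
    simp only [Matrix.map_mul, hCmap, mul_one] at this
    rw [this]
    exact Matrix.map_one _ (map_zero _) (map_one _)
  let D : S → ι → R.A := fun b j => ∑ b' : S, C⁻¹ b b' * c b' j
  have hD_mem : ∀ (b : S) (j : ι) (hj : j ∈ S), D b j = if j = b then 1 else 0 := by
    intro b j hj
    have : D b j = (C⁻¹ * C) b ⟨j, hj⟩ := by rw [Matrix.mul_apply]
    rw [this, hPC, Matrix.one_apply]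
    by_cases hbb : j = b
    · rw [if_pos hbb, if_pos (Subtype.ext hbb.symm)]
    · rw [if_neg hbb, if_neg fun h' => hbb (congrArg Subtype.val h').symm]
  have hD_res : ∀ (b : S) (j : ι), R.res (D b j) = gcoef S ub b j := by
    intro b j
    simp only [D, map_sum, map_mul, hres]
    rw [Finset.sum_eq_single b]
    · have : R.res (C⁻¹ b b) = 1 := by
        have := congrFun (congrFun hPmap b) b
        rwa [Matrix.map_apply, Matrix.one_apply_eq] at this
      rw [this, one_mul]
    · intro b' _ hb'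
      have : R.res (C⁻¹ b b') = 0 := by
        have := congrFun (congrFun hPmap b) b'
        rwa [Matrix.map_apply, Matrix.one_apply_ne (Ne.symm hb')] at this
      rw [this, zero_mul]
    · intro hb
      exact absurd (Finset.mem_univ _) hb
  let u : ι → ι → R.A := fun b j => if hb : b ∈ S then D ⟨b, hb⟩ j else 0
  have hu : ∀ (b : S) (j : ι), u b j = D b j := by
    intro b j
    simp only [u, dif_pos b.2]
  have hgv : ∀ b : S, gvec v S (fun b j => ((u b j : R.A) : K)) b =
      ∑ b' : S, ((C⁻¹ b b' : R.A) : K) • R.comb v (c b') := by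
    intro b
    rw [gvec_eq_sum]
    simp_rw [comb, Finset.smul_sum, smul_smul]
    rw [Finset.sum_comm]
    refine Finset.sum_congr rfl fun j _ => ?_
    rw [← Finset.sum_smul]
    congr 1
    have hDK : ((D b j : R.A) : K) = ∑ b' : S, ((C⁻¹ b b' : R.A) : K) * ((c b' j : R.A) : K) := by
      simp only [D]
      push_cast
      rfl
    rw [← hDK]
    by_cases hj : j ∈ S
    · rw [gcoef_of_mem _ _ _ hj, hD_mem b j hj]
      split_ifs <;> simp
    · rw [gcoef_of_notMem _ _ _ hj, hu]
  refine ⟨u, ?_, ?_⟩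
  · rw [isGraph_iff_gvec]
    refine eq_span_gvec_of hW (fun b => ?_) fun x hxW hx0 => ?_
    · rw [hgv]
      exact W.sum_mem fun b' _ => W.smul_mem _ (hcW b')
    · by_contra hne
      obtain ⟨a, -, fb, hfb, hr⟩ := h.exists_scale (hW hxW) hne
      obtain ⟨c', hc1, hc2⟩ := h.exists_comb_of_red
        ((span K (Set.range v)).smul_mem a (hW hxW)) hr
      have hcoord : ∀ j, a * x j = ((c' j : R.A) : K) := by
        rw [Finset.smul_sum, comb] at hc1
        simp_rw [smul_smul] at hc1
        exact Fintype.linearIndependent_iffₛ.mp h.linearIndependent _ _ hc1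
      have hc0 : ∀ j ∈ S, R.res (c' j) = 0 := by
        intro j hj
        have : c' j = 0 := Subtype.ext (by rw [← hcoord j, hx0 j hj, mul_zero]; rfl)
        rw [this, map_zero]
      have hmem : fb ∈ span k (Set.range (gvec vb S ub)) := by
        rw [← e]
        exact mem_redSub.mpr ⟨_, W.smul_mem a hxW, hr⟩
      rw [hc2, combk] at hmem
      apply hfb
      rw [hc2, combk]
      exact eq_zero_of_mem_span_gvec h.indep hmem hc0
  · intro b hb j hj
    have := hD_res ⟨b, hb⟩ j
    rw [gcoef_of_notMem _ _ _ hj] at this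
    rw [← this, ← hu ⟨b, hb⟩ j]

theorem IsFrame.exists_isGraph (h : R.IsFrame v vb) {W : Submodule K F}
    (hW : W ≤ span K (Set.range v)) : ∃ S u, R.IsGraph v S u W := by
  have hle : R.redSub W ≤ span k (Set.range vb) := by
    rw [← h.redSub_span]
    exact redSub_mono hW
  obtain ⟨S, ub, e⟩ := exists_span_gvec_eq hle
  obtain ⟨u, hu, -⟩ := h.exists_isGraph_of_redSub hW e
  exact ⟨S, u, hu⟩

theorem IsGraph.le_span {S : Finset ι} {u : ι → ι → R.A} {W : Submodule K F}
    (hg : R.IsGraph v S u W) : W ≤ span K (Set.range v) := by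
  rw [isGraph_iff_gvec.mp hg, span_le]
  rintro _ ⟨b, rfl⟩
  exact gvec_mem_span v S _ b

theorem IsGraph.unique (h : R.IsFrame v vb) {S : Finset ι} {u u' : ι → ι → R.A}
    {W : Submodule K F} (hg : R.IsGraph v S u W) (hg' : R.IsGraph v S u' W) :
    ∀ b ∈ S, ∀ j ∉ S, u b j = u' b j := by
  intro b hb j hj
  have := eq_of_span_gvec_eq h.linearIndependent
    ((isGraph_iff_gvec.mp hg).symm.trans (isGraph_iff_gvec.mp hg')) b hb j hj
  exact Subtype.ext this

theorem IsGraph.congr {S : Finset ι} {u u' : ι → ι → R.A} {W : Submodule K F}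
    (hg : R.IsGraph v S u W) (e : ∀ b ∈ S, ∀ j ∉ S, u b j = u' b j) : R.IsGraph v S u' W := by
  rw [isGraph_iff_gvec] at hg ⊢
  rw [hg, gvec_congr v S fun b hb j hj => by rw [e b hb j hj]]

theorem IsGraph.isGraph_gcoord {S : Finset ι} {u : ι → ι → R.A} {W : Submodule K F}
    (hg : R.IsGraph v S u W) : R.IsGraph v S (R.gcoord v S W) W := by
  have hex : ∃ u, R.IsGraph v S u W := ⟨u, hg⟩
  have : R.gcoord v S W = hex.choose := by
    funext b j
    rw [gcoord, dif_pos hex]
  rw [this]
  exact hex.choose_spec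

theorem IsGraph.gcoord_eq (h : R.IsFrame v vb) {S : Finset ι} {u : ι → ι → R.A}
    {W : Submodule K F} (hg : R.IsGraph v S u W) :
    ∀ b ∈ S, ∀ j ∉ S, R.gcoord v S W b j = u b j :=
  IsGraph.unique h hg.isGraph_gcoord hg

theorem IsGraph.redSub_eq (h : R.IsFrame v vb) {S : Finset ι} {u : ι → ι → R.A}
    {W : Submodule K F} (hg : R.IsGraph v S u W) :
    R.redSub W = span k (Set.range fun b : S => vb b + ∑ j ∈ Sᶜ, R.res (u b j) • vb j) := by
  rw [isGraph_iff_gvec.mp hg, (h.isFrame_gvec S u).redSub_span]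
  rfl

/-- validity of a chart and the residues of the coordinates only depend on the reduction -/
theorem IsGraph.of_redSub_eq (h : R.IsFrame v vb) {S : Finset ι} {u : ι → ι → R.A}
    {W W' : Submodule K F} (hg : R.IsGraph v S u W) (hW' : W' ≤ span K (Set.range v))
    (e : R.redSub W' = R.redSub W) :
    ∃ u', R.IsGraph v S u' W' ∧ ∀ b ∈ S, ∀ j ∉ S, R.res (u' b j) = R.res (u b j) :=
  h.exists_isGraph_of_redSub hW' (ub := fun b j => R.res (u b j)) (e.trans (hg.redSub_eq h))

theorem IsGraph.redSub_eq_iff (h : R.IsFrame v vb) {S : Finset ι} {u u' : ι → ι → R.A}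
    {W W' : Submodule K F} (hg : R.IsGraph v S u W) (hg' : R.IsGraph v S u' W') :
    R.redSub W' = R.redSub W ↔ ∀ b ∈ S, ∀ j ∉ S, R.res (u' b j) = R.res (u b j) := by
  have e1 : R.redSub W = span k (Set.range (gvec vb S fun b j => R.res (u b j))) := hg.redSub_eq h
  have e2 : R.redSub W' = span k (Set.range (gvec vb S fun b j => R.res (u' b j))) :=
    hg'.redSub_eq h
  rw [e1, e2]
  constructor
  · intro e
    exact eq_of_span_gvec_eq h.indep e
  · intro e
    rw [gvec_congr vb S e]

end Fermat.Agent.S19.KM.RedData
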