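import Fermat.Agent.S19.KM.Red.Defs

/-!
# S19 / KM route, section S0: the algebras `𝒮` of functions with constant reduction are "local"

* `exists_inv_mem` : a pointwise invertible element of `𝒮` is invertible in `𝒮` (`Ω` finite);
* `ConstRed.isUnit_of` : an element with nonzero reduction at one point is pointwise invertible;
* `exists_inv_matrix` : a square matrix over `𝒮` with invertible reduction is invertible over `𝒮`.

Mathlib only.  Owner: helper85.
-/

set_option autoImplicit false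

noncomputable section

namespace Fermat.Agent.S19.KM.RedData

open Module Submodule

/-- In a subalgebra of a finite power `Ω → A` of a commutative ring, a pointwise invertible element
is invertible: `s⁻¹` is a polynomial in `s`, because `s` is a root of `∏ ω, (X - s ω)`, whose
constant term is a unit. -/
theorem exists_inv_mem_of_forall_isUnit {A Ω : Type*} [CommRing A] [Finite Ω]
    (𝒮 : Subalgebra A (Ω → A)) {s : Ω → A} (hs : s ∈ 𝒮) (hu : ∀ ω, IsUnit (s ω)) :
    ∃ t ∈ 𝒮, s * t = 1 := by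
  classical
  cases nonempty_fintype Ω
  let P : Polynomial A := ∏ ω, (Polynomial.X - Polynomial.C (s ω))
  have hP : Polynomial.aeval s P = 0 := by
    funext ω₀
    have h1 : (Polynomial.aeval s P) ω₀ = Polynomial.aeval (s ω₀) P :=
      (Polynomial.aeval_algHom_apply (Pi.evalAlgHom A (fun _ => A) ω₀) s P).symm
    rw [h1, Pi.zero_apply, map_prod]
    exact Finset.prod_eq_zero (Finset.mem_univ ω₀) (by simp)
  have hc : IsUnit (P.coeff 0) := by
    rw [Polynomial.coeff_zero_eq_eval_zero, Polynomial.eval_prod]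
    refine IsUnit.prod_univ_iff.mpr fun ω => ?_
    simpa using (hu ω).neg
  obtain ⟨c, hc⟩ := hc
  have hmem : Polynomial.aeval s P.divX ∈ 𝒮 := by
    have := Polynomial.aeval_subalgebra_coe P.divX 𝒮 ⟨s, hs⟩
    rw [← this]
    exact Subtype.mem _
  have hdec : Polynomial.aeval s P.divX * s + algebraMap A (Ω → A) (c : A) = 0 := by
    have h2 := congrArg (Polynomial.aeval s) (Polynomial.divX_mul_X_add P)
    rw [hP, map_add, map_mul, Polynomial.aeval_X, Polynomial.aeval_C, ← hc] at h2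
    exact h2
  refine ⟨-((↑c⁻¹ : A) • Polynomial.aeval s P.divX), 𝒮.neg_mem (𝒮.smul_mem hmem _), ?_⟩
  have h3 : Polynomial.aeval s P.divX * s = -algebraMap A (Ω → A) (c : A) :=
    eq_neg_of_add_eq_zero_left hdec
  rw [mul_neg, mul_smul_comm, mul_comm s, h3, smul_neg, neg_neg, Algebra.smul_def, ← map_mul,
    Units.inv_mul, map_one]

variable {K F k Fk : Type*} [Field K] [Field F] [Algebra K F] [Field k] [Field Fk] [Algebra k Fk]
variable {R : RedData K F k Fk} {Ω : Type*}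

/-- `s⁻¹` is a polynomial in `s` (characteristic polynomial `∏ ω, (X - s ω)`, constant term a unit)-/
theorem exists_inv_mem [Finite Ω] (𝒮 : Subalgebra R.A (Ω → R.A)) {s : Ω → R.A} (hs : s ∈ 𝒮)
    (hu : ∀ ω, IsUnit (s ω)) : ∃ t ∈ 𝒮, s * t = 1 :=
  exists_inv_mem_of_forall_isUnit 𝒮 hs hu

theorem ConstRed.isUnit_of {𝒮 : Subalgebra R.A (Ω → R.A)} (hc : R.ConstRed 𝒮) {s : Ω → R.A}
    (hs : s ∈ 𝒮) {ω₀ : Ω} (h : R.res (s ω₀) ≠ 0) : ∀ ω, IsUnit (s ω) := by
  intro ω
  by_contra hn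
  exact h ((hc s hs ω₀ ω).trans ((R.res_eq_zero (s ω)).mpr hn))

/-- a square matrix over `𝒮` with invertible reduction has an inverse over `𝒮` -/
theorem exists_inv_matrix [Finite Ω] {n : Type*} [Fintype n] [DecidableEq n]
    {𝒮 : Subalgebra R.A (Ω → R.A)} (hc : R.ConstRed 𝒮) (P : Matrix n n (Ω → R.A))
    (hP : ∀ i j, P i j ∈ 𝒮) {ω₀ : Ω} (h : (P.map fun s => R.res (s ω₀)).det ≠ 0) :
    ∃ Q : Matrix n n (Ω → R.A), (∀ i j, Q i j ∈ 𝒮) ∧ P * Q = 1 ∧ Q * P = 1 := by
  let P' : Matrix n n 𝒮 := Matrix.of fun i j => ⟨P i j, hP i j⟩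
  have hPP' : P = P'.map 𝒮.val := rfl
  have hdet : ((P'.det : 𝒮) : Ω → R.A) = P.det := by
    rw [hPP']
    exact AlgHom.map_det 𝒮.val P'
  let φ : (Ω → R.A) →+* k := R.res.comp (Pi.evalRingHom (fun _ => R.A) ω₀)
  have hφ : R.res (P.det ω₀) = (P.map fun s => R.res (s ω₀)).det :=
    RingHom.map_det φ P
  have hmem : P.det ∈ 𝒮 := hdet ▸ (P'.det).2
  have hunit : ∀ ω, IsUnit (P.det ω) := hc.isUnit_of hmem (ω₀ := ω₀) (by rw [hφ]; exact h)
  obtain ⟨t, ht, hst⟩ := exists_inv_mem 𝒮 hmem hunit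
  have hU : IsUnit P'.det := by
    refine IsUnit.of_mul_eq_one (⟨t, ht⟩ : 𝒮) (Subtype.ext ?_)
    rw [Subalgebra.coe_mul, hdet]
    exact hst
  refine ⟨(P'⁻¹).map 𝒮.val, fun i j => (P'⁻¹ i j).2, ?_, ?_⟩
  · rw [hPP', ← Matrix.map_mul, Matrix.mul_nonsing_inv _ hU,
      Matrix.map_one _ (map_zero _) (map_one _)]
  · rw [hPP', ← Matrix.map_mul, Matrix.nonsing_inv_mul _ hU,
      Matrix.map_one _ (map_zero _) (map_one _)]

end Fermat.Agent.S19.KM.RedData
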