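import Fermat.Agent.S19.KM.Red.Basic
import Fermat.Agent.S19.KM.Red.Frame
import Fermat.Agent.S19.KM.Red.Local

/-!
# S19 / KM route, section S2: regular families.   Owner: helper57.
-/

set_option autoImplicit false

noncomputable section

namespace Fermat.Agent.S19.KM.RedData

open Module Submodule

variable {K F k Fk : Type*} [Field K] [Field F] [Algebra K F] [Field k] [Field Fk] [Algebra k Fk]
variable {R : RedData K F k Fk}

namespace Reg

variable {ι : Type*} [Fintype ι] {v : ι → F} {vb : ι → Fk}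

theorem comb_mem_span (c : ι → R.A) : R.comb v c ∈ span K (Set.range v) :=
  Submodule.sum_mem _ fun j _ => Submodule.smul_mem _ _ (subset_span ⟨j, rfl⟩)

/-- the frame given by integral combinations with independent reductions -/
theorem isFrame_comb (h : R.IsFrame v vb) {d : ℕ} (c : Fin d → ι → R.A)
    (hc : LinearIndependent k (fun a => R.combk vb (c a))) :
    R.IsFrame (fun a => R.comb v (c a)) (fun a => R.combk vb (c a)) :=
  ⟨fun a => red_comb h.red (c a), hc⟩

theorem range_fin_one {E : Type*} (g : Fin 1 → E) : Set.range g = {g 0} := by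
  ext x
  simp [eq_comm]

theorem comb_sum_mul {α : Type*} [Fintype α] (q : α → R.A) (c : α → ι → R.A) :
    R.comb v (fun j => ∑ a, q a * c a j) = ∑ a, ((q a : R.A) : K) • R.comb v (c a) := by
  unfold RedData.comb
  simp only [Finset.smul_sum]
  rw [Finset.sum_comm]
  refine Finset.sum_congr rfl fun j _ => ?_
  simp only [smul_smul]
  rw [← Finset.sum_smul]
  congr 1
  push_cast
  rfl

theorem combk_eq_linearCombination (c : ι → R.A) :
    R.combk vb c = Fintype.linearCombination k vb (fun j => R.res (c j)) := by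
  rw [Fintype.linearCombination_apply]
  rfl

theorem comb_eq_linearCombination (c : ι → R.A) :
    R.comb v c = Fintype.linearCombination K v (fun j => ((c j : R.A) : K)) := by
  rw [Fintype.linearCombination_apply]
  rfl

theorem linearIndependent_combk (h : LinearIndependent k vb) {α : Type*} (c : α → ι → R.A)
    (hc : LinearIndependent k (fun a => fun j => R.res (c a j))) :
    LinearIndependent k (fun a => R.combk vb (c a)) := by
  have := hc.map' (Fintype.linearCombination k vb)
    (LinearMap.ker_eq_bot.mpr h.fintypeLinearCombination_injective)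
  have e : (fun a => R.combk vb (c a)) =
      (Fintype.linearCombination k vb) ∘ fun a j => R.res (c a j) :=
    funext fun a => combk_eq_linearCombination (c a)
  rw [e]
  exact this

theorem comb_injective (h : R.IsFrame v vb) {c c' : ι → R.A} (e : R.comb v c = R.comb v c') :
    c = c' := by
  rw [comb_eq_linearCombination, comb_eq_linearCombination] at e
  have := h.linearIndependent.fintypeLinearCombination_injective e
  funext j
  exact Subtype.ext (congrFun this j)

section Graph

variable [DecidableEq ι]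

/-- full coefficient vector of a graph vector -/
def gvec (S : Finset ι) (u : ι → ι → R.A) (b : ι) : ι → R.A :=
  fun j => if j = b then 1 else if j ∈ S then 0 else u b j

theorem comb_gvec (S : Finset ι) (u : ι → ι → R.A) {b : ι} (hb : b ∈ S) :
    R.comb v (gvec S u b) = v b + ∑ j ∈ Sᶜ, ((u b j : R.A) : K) • v j := by
  unfold RedData.comb
  rw [← Finset.sum_add_sum_compl S]
  congr 1
  · rw [Finset.sum_eq_single b]
    · simp [gvec]
    · intro j hj hjb
      simp [gvec, hjb, hj]
    · intro h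
      exact absurd hb h
  · refine Finset.sum_congr rfl fun j hj => ?_
    have hjS : j ∉ S := Finset.mem_compl.mp hj
    have : j ≠ b := fun h => hjS (h ▸ hb)
    simp [gvec, this, hjS]

theorem isGraph_iff (S : Finset ι) (u : ι → ι → R.A) (W : Submodule K F) :
    R.IsGraph v S u W ↔ W = span K (Set.range fun b : S => R.comb v (gvec S u b)) := by
  unfold RedData.IsGraph
  have : (fun b : S => R.comb v (gvec S u b)) =
      fun b : S => v b + ∑ j ∈ Sᶜ, ((u b j : R.A) : K) • v j :=
    funext fun b => comb_gvec S u b.2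
  rw [this]

omit [Fintype ι] in
theorem linearIndependent_res_gvec (S : Finset ι) (u : ι → ι → R.A) :
    LinearIndependent k (fun b : S => fun j => R.res (gvec S u b j)) := by
  refine LinearIndependent.of_comp (LinearMap.funLeft k k (Subtype.val : S → ι)) ?_
  convert Pi.linearIndependent_single_one S k using 1
  funext b b'
  simp only [Function.comp_apply, LinearMap.funLeft_apply, gvec, Pi.single_apply]
  by_cases hbb : b' = b
  · simp [hbb]
  · have : (b' : ι) ≠ b := fun h => hbb (Subtype.ext h)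
    simp [hbb, this]

theorem isFrame_gvec (h : R.IsFrame v vb) (S : Finset ι) (u : ι → ι → R.A) :
    R.IsFrame (fun b : S => R.comb v (gvec S u b)) (fun b : S => R.combk vb (gvec S u b)) :=
  ⟨fun b => red_comb h.red _, linearIndependent_combk h.indep _ (linearIndependent_res_gvec S u)⟩

/-- uniqueness of graph coordinates (local copy, so that this file does not depend on `Graph`) -/
theorem isGraph_unique (h : R.IsFrame v vb) {S : Finset ι} {u u' : ι → ι → R.A}
    {W : Submodule K F} (hg : R.IsGraph v S u W) (hg' : R.IsGraph v S u' W) :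
    ∀ b ∈ S, ∀ j ∉ S, u b j = u' b j := by
  intro b hb j hj
  rw [isGraph_iff] at hg hg'
  have hmem : R.comb v (gvec S u' b) ∈ span K (Set.range fun b : S => R.comb v (gvec S u b)) := by
    rw [← hg, hg']
    exact subset_span ⟨⟨b, hb⟩, rfl⟩
  obtain ⟨c, hc1, -⟩ := (isFrame_gvec h S u).exists_comb_of_red hmem (red_comb h.red _)
  have h2 : R.comb (fun b : S => R.comb v (gvec S u b)) c =
      R.comb v (fun j => ∑ b' : S, c b' * gvec S u b' j) := (comb_sum_mul c _).symm
  rw [h2] at hc1
  have h3 := fun j => congrFun (comb_injective h hc1) j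
  have hcS : ∀ b'' : S, c b'' = if (b'' : ι) = b then 1 else 0 := by
    intro b''
    have := h3 b''
    rw [Finset.sum_eq_single b''] at this
    · simpa [gvec] using this.symm
    · intro b' _ hne
      have : (b'' : ι) ≠ b' := fun hh => hne (Subtype.ext hh.symm)
      simp [gvec, this]
    · intro hh
      exact absurd (Finset.mem_univ b'') hh
  have h4 := h3 j
  rw [Finset.sum_eq_single ⟨b, hb⟩] at h4
  · have hjb : j ≠ b := fun hh => hj (hh ▸ hb)
    simpa [gvec, hcS, hjb, hj] using h4.symm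
  · intro b' _ hne
    have : (b' : ι) ≠ b := fun hh => hne (Subtype.ext hh)
    simp [hcS, this]
  · intro hh
    exact absurd (Finset.mem_univ _) hh

theorem gcoord_eq_of_isGraph (h : R.IsFrame v vb) {S : Finset ι} {u : ι → ι → R.A}
    {W : Submodule K F} (hg : R.IsGraph v S u W) :
    ∀ b ∈ S, ∀ j ∉ S, R.gcoord v S W b j = u b j := by
  intro b hb j hj
  have hex : ∃ u, R.IsGraph v S u W := ⟨u, hg⟩
  unfold RedData.gcoord
  rw [dif_pos hex]
  exact isGraph_unique h hex.choose_spec hg b hb j hj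

end Graph

end Reg

open Reg

section S2
variable {Ω : Type*} {ι : Type*} [Fintype ι] {v : ι → F} {vb : ι → Fk}

theorem IsReg.le_span {𝒮 : Subalgebra R.A (Ω → R.A)} {W : Ω → Submodule K F}
    (hW : R.IsReg 𝒮 v vb W) (ω : Ω) : W ω ≤ span K (Set.range v) := by
  obtain ⟨d, s, -, hs⟩ := hW
  rw [← (hs ω).1, span_le]
  rintro _ ⟨a, rfl⟩
  exact comb_mem_span _

theorem IsReg.mono {𝒮 𝒮' : Subalgebra R.A (Ω → R.A)} (h : 𝒮 ≤ 𝒮') {W : Ω → Submodule K F}
    (hW : R.IsReg 𝒮 v vb W) : R.IsReg 𝒮' v vb W := by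
  obtain ⟨d, s, hs, hs'⟩ := hW
  exact ⟨d, s, fun a j => h (hs a j), hs'⟩

/-- pull-back of a regular family along a map of index sets -/
theorem IsReg.comp {Ω' : Type*} (π : Ω' → Ω) {𝒮 : Subalgebra R.A (Ω → R.A)}
    {𝒮' : Subalgebra R.A (Ω' → R.A)} (h : ∀ s ∈ 𝒮, s ∘ π ∈ 𝒮') {W : Ω → Submodule K F}
    (hW : R.IsReg 𝒮 v vb W) : R.IsReg 𝒮' v vb (W ∘ π) := by
  obtain ⟨d, s, hs, hs'⟩ := hW
  exact ⟨d, fun a j => s a j ∘ π, fun a j => h _ (hs a j), fun ω => hs' (π ω)⟩

theorem IsReg.const (h : R.IsFrame v vb) (𝒮 : Subalgebra R.A (Ω → R.A)) {W : Submodule K F}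
    (hW : W ≤ span K (Set.range v)) : R.IsReg 𝒮 v vb (fun _ => W) := by
  obtain ⟨d, c, hc, hc'⟩ := h.exists_subframe hW
  exact ⟨d, fun a j _ => c a j, fun a j => 𝒮.algebraMap_mem (c a j), fun _ => ⟨hc, hc'⟩⟩

theorem IsReg.redSub_eq (h : R.IsFrame v vb) {𝒮 : Subalgebra R.A (Ω → R.A)} (hc : R.ConstRed 𝒮)
    {W : Ω → Submodule K F} (hW : R.IsReg 𝒮 v vb W) (ω ω' : Ω) :
    R.redSub (W ω) = R.redSub (W ω') := by
  obtain ⟨d, s, hs, hs'⟩ := hW
  rw [← (hs' ω).1, ← (hs' ω').1, (isFrame_comb h _ (hs' ω).2).redSub_span,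
    (isFrame_comb h _ (hs' ω').2).redSub_span]
  congr 2
  funext a
  unfold RedData.combk
  exact Finset.sum_congr rfl fun j _ => by rw [hc _ (hs a j) ω ω']

/-- a regular family of positive dimension has a regular nowhere vanishing section -/
theorem IsReg.exists_section (h : R.IsFrame v vb) {𝒮 : Subalgebra R.A (Ω → R.A)}
    {W : Ω → Submodule K F} (hW : R.IsReg 𝒮 v vb W) (h0 : ∀ ω, W ω ≠ ⊥) :
    ∃ a : Ω → F, (∀ ω, a ω ∈ W ω ∧ a ω ≠ 0) ∧ R.IsReg 𝒮 v vb (fun ω => K ∙ a ω) := by
  obtain ⟨d, s, hs, hs'⟩ := hW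
  rcases isEmpty_or_nonempty Ω with hΩ | ⟨⟨ω₀⟩⟩
  · exact ⟨fun ω => isEmptyElim ω, fun ω => isEmptyElim ω,
      0, fun a => Fin.elim0 a, fun a => Fin.elim0 a, fun ω => isEmptyElim ω⟩
  have hd : d ≠ 0 := by
    rintro rfl
    apply h0 ω₀
    rw [← (hs' ω₀).1]
    simp
  obtain ⟨d, rfl⟩ := Nat.exists_eq_succ_of_ne_zero hd
  refine ⟨fun ω => R.comb v fun j => s 0 j ω, fun ω => ⟨?_, ?_⟩,
    1, fun _ => s 0, fun _ j => hs 0 j, fun ω => ⟨?_, ?_⟩⟩
  · rw [← (hs' ω).1]
    exact subset_span ⟨0, rfl⟩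
  · exact (red_comb h.red _).ne_zero ((hs' ω).2.ne_zero 0)
  · congr 1
    ext x
    simp
  · exact LinearIndependent.of_subsingleton 0 ((hs' ω).2.ne_zero 0)

/-- a regular family of lines -/
theorem IsReg.exists_generator (h : R.IsFrame v vb) {𝒮 : Subalgebra R.A (Ω → R.A)}
    {W : Ω → Submodule K F} (hW : R.IsReg 𝒮 v vb W) (h1 : ∀ ω, finrank K (W ω) = 1) :
    ∃ (a : Ω → F) (ab : Ω → Fk), ∀ ω, W ω = K ∙ a ω ∧ R.Red (a ω) (ab ω) ∧ ab ω ≠ 0 ∧
      R.redSub (W ω) = k ∙ ab ω := by
  obtain ⟨d, s, hs, hs'⟩ := hW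
  have key : ∀ ω, ∃ (a : F) (ab : Fk), W ω = K ∙ a ∧ R.Red a ab ∧ ab ≠ 0 ∧
      R.redSub (W ω) = k ∙ ab := by
    intro ω
    have hfr := isFrame_comb h _ (hs' ω).2
    have hd : d = 1 := by
      have := finrank_span_eq_card hfr.linearIndependent
      rw [(hs' ω).1, h1 ω, Fintype.card_fin] at this
      exact this.symm
    subst hd
    refine ⟨R.comb v fun j => s 0 j ω, R.combk vb fun j => s 0 j ω, ?_, hfr.red 0,
      (hs' ω).2.ne_zero 0, ?_⟩
    · rw [← (hs' ω).1, range_fin_one]
    · rw [← (hs' ω).1, hfr.redSub_span, range_fin_one]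
  choose a ab hab using key
  exact ⟨a, ab, hab⟩

variable [DecidableEq ι]

theorem isReg_of_isGraph (h : R.IsFrame v vb) {𝒮 : Subalgebra R.A (Ω → R.A)}
    {W : Ω → Submodule K F} (S : Finset ι) (U : ι → ι → Ω → R.A)
    (hU : ∀ b ∈ S, ∀ j ∉ S, U b j ∈ 𝒮) (hg : ∀ ω, R.IsGraph v S (fun b j => U b j ω) (W ω)) :
    R.IsReg 𝒮 v vb W := by
  let e : Fin S.card ≃ S := S.equivFin.symm
  refine ⟨S.card, fun a j ω => gvec S (fun b j => U b j ω) (e a) j, fun a j => ?_, fun ω => ⟨?_, ?_⟩⟩
  · change (fun ω => gvec S (fun b j => U b j ω) (e a) j) ∈ 𝒮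
    by_cases h1 : j = e a
    · have : (fun ω => gvec S (fun b j => U b j ω) (e a) j) = 1 := by
        funext ω
        simp [gvec, h1]
      rw [this]
      exact 𝒮.one_mem
    · by_cases h2 : j ∈ S
      · have : (fun ω => gvec S (fun b j => U b j ω) (e a) j) = 0 := by
          funext ω
          simp [gvec, h1, h2]
        rw [this]
        exact 𝒮.zero_mem
      · have : (fun ω => gvec S (fun b j => U b j ω) (e a) j) = U (e a) j := by
          funext ω
          simp [gvec, h1, h2]
        rw [this]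
        exact hU _ (e a).2 _ h2
  · rw [(isGraph_iff S _ _).mp (hg ω)]
    congr 1
    exact e.surjective.range_comp (fun b : S => R.comb v (gvec S (fun b j => U b j ω) b))
  · exact linearIndependent_combk h.indep _
      ((linearIndependent_res_gvec S fun b j => U b j ω).comp e e.injective)

/-- **graph coordinates of a regular family lie in `𝒮`** -/
theorem IsReg.gcoord_mem [Finite Ω] (h : R.IsFrame v vb) {𝒮 : Subalgebra R.A (Ω → R.A)}
    (hc : R.ConstRed 𝒮) {W : Ω → Submodule K F} (hW : R.IsReg 𝒮 v vb W) (S : Finset ι) {ω₀ : Ω}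
    (hg : ∃ u, R.IsGraph v S u (W ω₀)) :
    (∀ ω, ∃ u, R.IsGraph v S u (W ω)) ∧
      ∀ b ∈ S, ∀ j ∉ S, (fun ω => R.gcoord v S (W ω) b j) ∈ 𝒮 := by
  obtain ⟨d, s, hs, hs'⟩ := hW
  obtain ⟨u, hu⟩ := hg
  rw [isGraph_iff] at hu
  have hfw := isFrame_comb h (fun a j => s a j ω₀) (hs' ω₀).2
  have hfg := isFrame_gvec h S u
  -- the dimension is the cardinality of the chart
  have hd : S.card = d := by
    have h1 := finrank_span_eq_card hfw.linearIndependent
    have h2 := finrank_span_eq_card hfg.linearIndependent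
    rw [(hs' ω₀).1, Fintype.card_fin] at h1
    rw [← hu, Fintype.card_coe] at h2
    rw [← h1, ← h2]
  subst hd
  let e : Fin S.card ≃ S := S.equivFin.symm
  -- coefficients of the graph vectors in the regular basis at `ω₀`
  have hcoef : ∀ b : S, ∃ c : Fin S.card → R.A, ∀ j, gvec S u b j = ∑ a, c a * s a j ω₀ := by
    intro b
    have hmem : R.comb v (gvec S u b) ∈
        span K (Set.range fun a => R.comb v fun j => s a j ω₀) := by
      rw [(hs' ω₀).1, hu]
      exact subset_span ⟨b, rfl⟩
    obtain ⟨c, hc1, -⟩ := hfw.exists_comb_of_red hmem (hfg.red b)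
    refine ⟨c, fun j => ?_⟩
    have h2 : R.comb (fun a => R.comb v fun j => s a j ω₀) c =
        R.comb v (fun j => ∑ a, c a * s a j ω₀) := (comb_sum_mul c _).symm
    rw [h2] at hc1
    exact congrFun (comb_injective h hc1) j
  choose c hcc using hcoef
  -- the square matrix of `S`-coordinates
  let P : Matrix S S (Ω → R.A) := fun b' b => s (e.symm b') b
  have hP : ∀ i j, P i j ∈ 𝒮 := fun i j => hs _ _
  let C : Matrix S S R.A := fun b b' => c b (e.symm b')
  have hCP : C * P.map (fun t => t ω₀) = 1 := by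
    ext b b''
    rw [Matrix.mul_apply, Matrix.one_apply]
    have h1 : ∑ b', C b b' * (P.map fun t => t ω₀) b' b'' = ∑ a, c b a * s a b'' ω₀ :=
      Equiv.sum_comp e.symm (fun a => c b a * s a b'' ω₀)
    rw [h1, ← hcc b b'']
    by_cases hbb : b = b''
    · subst hbb
      simp [gvec]
    · have : (b'' : ι) ≠ b := fun h => hbb (Subtype.ext h.symm)
      simp [gvec, hbb, this]
  have hdet : (P.map fun t => R.res (t ω₀)).det ≠ 0 := by
    have h1 : (P.map fun t => R.res (t ω₀)) = (P.map fun t => t ω₀).map R.res := by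
      ext i j
      rfl
    rw [h1]
    apply Matrix.det_ne_zero_of_left_inverse (B := C.map R.res)
    rw [← Matrix.map_mul, hCP, Matrix.map_one _ (map_zero _) (map_one _)]
  obtain ⟨Q, hQ, hPQ, hQP⟩ := exists_inv_matrix hc P hP hdet
  -- the graph coordinates
  let Uf : S → ι → Ω → R.A := fun b j => ∑ a, Q b (e a) * s a j
  have hUf : ∀ b j, Uf b j ∈ 𝒮 := fun b j =>
    Subalgebra.sum_mem _ fun a _ => 𝒮.mul_mem (hQ _ _) (hs _ _)
  have hUfS : ∀ (b j' : S), Uf b j' = (1 : Matrix S S (Ω → R.A)) b j' := by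
    intro b j'
    rw [← hQP, Matrix.mul_apply]
    rw [← Equiv.sum_comp e (fun b' => Q b b' * P b' j')]
    refine Finset.sum_congr rfl fun a _ => ?_
    change Q b (e a) * s a j' = Q b (e a) * s (e.symm (e a)) j'
    rw [Equiv.symm_apply_apply]
  let U : ι → ι → Ω → R.A := fun b j => if hb : b ∈ S then Uf ⟨b, hb⟩ j else 0
  have hgv : ∀ ω (b : S), gvec S (fun b j => U b j ω) b = fun j => Uf b j ω := by
    intro ω b
    funext j
    by_cases h1 : j = b
    · subst h1
      have := congrFun (hUfS b b) ω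
      simp only [Matrix.one_apply_eq, Pi.one_apply] at this
      simp [gvec, this]
    · by_cases h2 : j ∈ S
      · have := congrFun (hUfS b ⟨j, h2⟩) ω
        rw [Matrix.one_apply_ne (fun hh => h1 (congrArg Subtype.val hh).symm)] at this
        simp only [Pi.zero_apply] at this
        simp [gvec, h1, h2, this]
      · simp [gvec, h1, h2, U]
  have hcombU : ∀ ω (b : S), R.comb v (fun j => Uf b j ω) =
      ∑ a, ((Q b (e a) ω : R.A) : K) • R.comb v (fun j => s a j ω) := by
    intro ω b
    rw [← comb_sum_mul]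
    congr 1
    funext j
    simp [Uf, Finset.sum_apply]
  have hs_eq : ∀ ω a j, s a j ω = ∑ b : S, P (e a) b ω * Uf b j ω := by
    intro ω a j
    have h1 : ∀ a', (∑ b : S, P (e a) b * Q b (e a')) = (1 : Matrix S S (Ω → R.A)) (e a) (e a') := by
      intro a'
      rw [← hPQ, Matrix.mul_apply]
    have h2 : (∑ b : S, P (e a) b * Uf b j) = s a j := by
      simp only [Uf, Finset.mul_sum]
      rw [Finset.sum_comm]
      simp only [← mul_assoc, ← Finset.sum_mul, h1]
      rw [Finset.sum_eq_single a]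
      · simp
      · intro a' _ ha'
        rw [Matrix.one_apply_ne (fun hh => ha' (e.injective hh).symm), zero_mul]
      · intro hh
        exact absurd (Finset.mem_univ a) hh
    have := congrFun h2 ω
    simp only [Finset.sum_apply, Pi.mul_apply] at this
    exact this.symm
  have hgraph : ∀ ω, R.IsGraph v S (fun b j => U b j ω) (W ω) := by
    intro ω
    rw [isGraph_iff]
    simp only [hgv]
    apply le_antisymm
    · rw [← (hs' ω).1, span_le]
      rintro _ ⟨a, rfl⟩
      have : (R.comb v fun j => s a j ω) =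
          ∑ b : S, ((P (e a) b ω : R.A) : K) • R.comb v (fun j => Uf b j ω) := by
        rw [← comb_sum_mul]
        congr 1
        funext j
        exact hs_eq ω a j
      change (R.comb v fun j => s a j ω) ∈ _
      rw [this]
      exact Submodule.sum_mem _ fun b _ => Submodule.smul_mem _ _ (subset_span ⟨b, rfl⟩)
    · rw [span_le]
      rintro _ ⟨b, rfl⟩
      change R.comb v (fun j => Uf b j ω) ∈ W ω
      rw [hcombU, ← (hs' ω).1]
      exact Submodule.sum_mem _ fun a _ => Submodule.smul_mem _ _ (subset_span ⟨a, rfl⟩)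
  refine ⟨fun ω => ⟨_, hgraph ω⟩, fun b hb j hj => ?_⟩
  have : (fun ω => R.gcoord v S (W ω) b j) = Uf ⟨b, hb⟩ j := by
    funext ω
    rw [gcoord_eq_of_isGraph h (hgraph ω) b hb j hj]
    simp [U, hb]
  rw [this]
  exact hUf _ _

end S2

end Fermat.Agent.S19.KM.RedData
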