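import Fermat.Agent.S19.KM.Red.Frame

/-!
# S19 / KM route, K0: regularity does not depend on the frame of the ambient space
Owner: helper206.
-/

set_option autoImplicit false

noncomputable section

namespace Fermat.Agent.S19.KM

open Module Submodule

variable {K F k Fk : Type*} [Field K] [Field F] [Algebra K F] [Field k] [Field Fk] [Algebra k Fk]

namespace RedData

/-- substitution of a change of frame in `comb` -/
theorem comb_change {R : RedData K F k Fk} {ι ι' : Type*} [Fintype ι] [Fintype ι']
    {v : ι → F} {v' : ι' → F} (c : ι → ι' → R.A) (hc : ∀ j, v j = R.comb v' (c j))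
    (s : ι → R.A) : R.comb v' (fun j' => ∑ j, s j * c j j') = R.comb v s := by
  unfold comb
  simp only [hc]
  unfold comb
  simp only [Finset.smul_sum, smul_smul]
  rw [Finset.sum_comm]
  refine Finset.sum_congr rfl fun j' _ => ?_
  rw [← Finset.sum_smul]
  congr 1
  push_cast
  rfl

/-- substitution of a change of frame in `combk` -/
theorem combk_change {R : RedData K F k Fk} {ι ι' : Type*} [Fintype ι] [Fintype ι']
    {vb : ι → Fk} {vb' : ι' → Fk} (c : ι → ι' → R.A) (hc : ∀ j, vb j = R.combk vb' (c j))
    (s : ι → R.A) : R.combk vb' (fun j' => ∑ j, s j * c j j') = R.combk vb s := by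
  unfold combk
  simp only [hc]
  unfold combk
  simp only [Finset.smul_sum, smul_smul]
  rw [Finset.sum_comm]
  refine Finset.sum_congr rfl fun j' _ => ?_
  rw [← Finset.sum_smul]
  congr 1
  simp only [map_sum, map_mul]

end RedData

/-- regularity does not depend on the frame of the ambient space -/
theorem RedData.IsReg.change_frame {R : RedData K F k Fk} {Ω ι ι' : Type*} [Fintype ι] [Fintype ι']
    {v : ι → F} {vb : ι → Fk} {v' : ι' → F} {vb' : ι' → Fk} (h : R.IsFrame v vb)
    (h' : R.IsFrame v' vb') (e : span K (Set.range v) = span K (Set.range v'))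
    {𝒮 : Subalgebra R.A (Ω → R.A)} {W : Ω → Submodule K F} (hW : R.IsReg 𝒮 v vb W) :
    R.IsReg 𝒮 v' vb' W := by
  have hex : ∀ j, ∃ c : ι' → R.A, v j = R.comb v' c ∧ vb j = R.combk vb' c := fun j =>
    h'.exists_comb_of_red (e ▸ subset_span ⟨j, rfl⟩) (h.red j)
  choose c hc hcb using hex
  obtain ⟨d, s, hs, hsp⟩ := hW
  refine ⟨d, fun a j' ω => ∑ j, s a j ω * c j j', fun a j' => ?_, fun ω => ?_⟩
  · have : (fun ω => ∑ j, s a j ω * c j j') = ∑ j, c j j' • s a j := by
      ext ω
      simp [Finset.sum_apply, mul_comm]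
    show (fun ω => ∑ j, s a j ω * c j j') ∈ 𝒮
    rw [this]
    exact Subalgebra.sum_mem _ fun j _ => Subalgebra.smul_mem _ (hs a j) _
  · have h1 : ∀ a, (R.comb v' fun j' => ∑ j, s a j ω * c j j') = R.comb v fun j => s a j ω :=
      fun a => RedData.comb_change c hc _
    have h2 : ∀ a, (R.combk vb' fun j' => ∑ j, s a j ω * c j j') = R.combk vb fun j => s a j ω :=
      fun a => RedData.combk_change c hcb _
    simp only [h1, h2]
    exact hsp ω

end Fermat.Agent.S19.KM
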