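import Fermat.Agent.S19.KM.Red.Frame

/-!
# S19 / KM route, section S3 (first half): structure constants and Op1 (products of regular families)
-/

set_option autoImplicit false

noncomputable section

namespace Fermat.Agent.S19.KM.RedData

open Module Submodule

variable {K F k Fk : Type*} [Field K] [Field F] [Algebra K F] [Field k] [Field Fk] [Algebra k Fk]
variable {R : RedData K F k Fk}

section S3
variable {Ω : Type*} {ι₁ ι₂ ι₃ : Type*} [Fintype ι₁] [Fintype ι₂] [Fintype ι₃]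
  {v₁ : ι₁ → F} {vb₁ : ι₁ → Fk} {v₂ : ι₂ → F} {vb₂ : ι₂ → Fk} {v₃ : ι₃ → F} {vb₃ : ι₃ → Fk}

/-- structure constants are integral and reduce correctly -/
theorem exists_structure_constants (h₁ : R.IsFrame v₁ vb₁) (h₂ : R.IsFrame v₂ vb₂)
    (h₃ : R.IsFrame v₃ vb₃) (hmul : ∀ a b, v₁ a * v₂ b ∈ span K (Set.range v₃)) :
    ∃ γ : ι₁ → ι₂ → ι₃ → R.A, ∀ a b, v₁ a * v₂ b = R.comb v₃ (γ a b) ∧
      vb₁ a * vb₂ b = R.combk vb₃ (γ a b) := by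
  have h : ∀ a b, ∃ c : ι₃ → R.A, v₁ a * v₂ b = R.comb v₃ c ∧ vb₁ a * vb₂ b = R.combk vb₃ c :=
    fun a b => h₃.exists_comb_of_red (hmul a b) ((h₁.red a).mul (h₂.red b))
  choose γ hγ using h
  exact ⟨γ, hγ⟩

namespace Op1

/-- coordinates of the product of two combinations -/
def prodCoord (γ : ι₁ → ι₂ → ι₃ → R.A) (c₁ : ι₁ → R.A) (c₂ : ι₂ → R.A) (l : ι₃) : R.A :=
  ∑ i, ∑ j, c₁ i * c₂ j * γ i j l

theorem comb_mul_comb (γ : ι₁ → ι₂ → ι₃ → R.A) (hγ : ∀ a b, v₁ a * v₂ b = R.comb v₃ (γ a b))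
    (c₁ : ι₁ → R.A) (c₂ : ι₂ → R.A) :
    R.comb v₁ c₁ * R.comb v₂ c₂ = R.comb v₃ (prodCoord γ c₁ c₂) := by
  have e1 : R.comb v₁ c₁ * R.comb v₂ c₂ =
      ∑ i, ∑ j, ∑ l, (((c₁ i * c₂ j * γ i j l : R.A)) : K) • v₃ l := by
    unfold comb
    rw [Finset.sum_mul_sum]
    refine Finset.sum_congr rfl fun i _ => Finset.sum_congr rfl fun j _ => ?_
    rw [smul_mul_smul_comm, hγ]
    unfold comb
    rw [Finset.smul_sum]
    refine Finset.sum_congr rfl fun l _ => ?_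
    rw [smul_smul]
    push_cast
    rfl
  have e2 : R.comb v₃ (prodCoord γ c₁ c₂) =
      ∑ l, ∑ i, ∑ j, (((c₁ i * c₂ j * γ i j l : R.A)) : K) • v₃ l := by
    unfold comb prodCoord
    refine Finset.sum_congr rfl fun l _ => ?_
    push_cast
    simp only [Finset.sum_smul]
  rw [e1, e2]
  calc ∑ i, ∑ j, ∑ l, (((c₁ i * c₂ j * γ i j l : R.A)) : K) • v₃ l
      = ∑ i, ∑ l, ∑ j, (((c₁ i * c₂ j * γ i j l : R.A)) : K) • v₃ l :=
        Finset.sum_congr rfl fun i _ => Finset.sum_comm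
    _ = ∑ l, ∑ i, ∑ j, (((c₁ i * c₂ j * γ i j l : R.A)) : K) • v₃ l := Finset.sum_comm

theorem prodCoord_mem {𝒮 : Subalgebra R.A (Ω → R.A)} (γ : ι₁ → ι₂ → ι₃ → R.A)
    {c₁ : ι₁ → Ω → R.A} {c₂ : ι₂ → Ω → R.A} (h₁ : ∀ i, c₁ i ∈ 𝒮) (h₂ : ∀ j, c₂ j ∈ 𝒮) (l : ι₃) :
    (fun ω => prodCoord γ (fun i => c₁ i ω) (fun j => c₂ j ω) l) ∈ 𝒮 := by
  have e : (fun ω => prodCoord γ (fun i => c₁ i ω) (fun j => c₂ j ω) l) =
      ∑ i, ∑ j, c₁ i * c₂ j * algebraMap R.A (Ω → R.A) (γ i j l) := by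
    funext ω
    simp [prodCoord, Finset.sum_apply]
  rw [e]
  exact 𝒮.sum_mem fun i _ => 𝒮.sum_mem fun j _ =>
    𝒮.mul_mem (𝒮.mul_mem (h₁ i) (h₂ j)) (𝒮.algebraMap_mem _)

theorem combk_mul_combk (h₁ : ∀ j, R.Red (v₁ j) (vb₁ j)) (h₂ : ∀ j, R.Red (v₂ j) (vb₂ j))
    (h₃ : ∀ j, R.Red (v₃ j) (vb₃ j)) (γ : ι₁ → ι₂ → ι₃ → R.A)
    (hγ : ∀ a b, v₁ a * v₂ b = R.comb v₃ (γ a b)) (c₁ : ι₁ → R.A) (c₂ : ι₂ → R.A) :
    R.combk vb₁ c₁ * R.combk vb₂ c₂ = R.combk vb₃ (prodCoord γ c₁ c₂) := by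
  have a := (red_comb h₁ c₁).mul (red_comb h₂ c₂)
  rw [comb_mul_comb γ hγ] at a
  exact a.unique (red_comb h₃ _)

theorem combk_congr {ι : Type*} [Fintype ι] (vb : ι → Fk) {c c' : ι → R.A}
    (h : ∀ j, R.res (c j) = R.res (c' j)) : R.combk vb c = R.combk vb c' := by
  unfold combk
  simp only [h]

end Op1

/-- **Op1: products.** -/
theorem IsReg.mul (h₁ : R.IsFrame v₁ vb₁) (h₂ : R.IsFrame v₂ vb₂) (h₃ : R.IsFrame v₃ vb₃)
    (hmul : ∀ a b, v₁ a * v₂ b ∈ span K (Set.range v₃))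
    {𝒮 : Subalgebra R.A (Ω → R.A)} (hc : R.ConstRed 𝒮) {W₁ W₂ : Ω → Submodule K F}
    (hW₁ : R.IsReg 𝒮 v₁ vb₁ W₁) (hW₂ : R.IsReg 𝒮 v₂ vb₂ W₂)
    (hdim : ∀ ω, finrank K (W₁ ω * W₂ ω : Submodule K F) ≤
      finrank k (R.redSub (W₁ ω) * R.redSub (W₂ ω) : Submodule k Fk)) :
    R.IsReg 𝒮 v₃ vb₃ (fun ω => W₁ ω * W₂ ω) ∧
      ∀ ω, R.redSub (W₁ ω * W₂ ω) = R.redSub (W₁ ω) * R.redSub (W₂ ω) := by
  classical
  obtain ⟨γ, hγ⟩ := exists_structure_constants h₁ h₂ h₃ hmul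
  obtain ⟨d₁, s₁, hs₁, H₁⟩ := hW₁
  obtain ⟨d₂, s₂, hs₂, H₂⟩ := hW₂
  rcases isEmpty_or_nonempty Ω with hΩ | ⟨⟨ω₀⟩⟩
  · exact ⟨⟨0, fun a => a.elim0, fun a => a.elim0, fun ω => (hΩ.false ω).elim⟩,
      fun ω => (hΩ.false ω).elim⟩
  -- coordinates of the products
  obtain ⟨t, ht⟩ : ∃ t : Fin d₁ × Fin d₂ → ι₃ → Ω → R.A, t = fun x l ω =>
      Op1.prodCoord γ (fun i => s₁ x.1 i ω) (fun j => s₂ x.2 j ω) l := ⟨_, rfl⟩
  have ht𝒮 : ∀ x l, t x l ∈ 𝒮 := fun x l => by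
    rw [ht]; exact Op1.prodCoord_mem γ (hs₁ x.1) (hs₂ x.2) l
  have hp : ∀ x ω, R.comb v₃ (fun l => t x l ω) =
      R.comb v₁ (fun i => s₁ x.1 i ω) * R.comb v₂ (fun j => s₂ x.2 j ω) := fun x ω => by
    rw [ht]; exact (Op1.comb_mul_comb γ (fun a b => (hγ a b).1) _ _).symm
  have hpb : ∀ x ω, R.combk vb₃ (fun l => t x l ω) =
      R.combk vb₁ (fun i => s₁ x.1 i ω) * R.combk vb₂ (fun j => s₂ x.2 j ω) := fun x ω => by
    rw [ht]
    exact (Op1.combk_mul_combk h₁.red h₂.red h₃.red γ (fun a b => (hγ a b).1) _ _).symm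
  have hconst : ∀ x ω ω', R.combk vb₃ (fun l => t x l ω) = R.combk vb₃ (fun l => t x l ω') :=
    fun x ω ω' => Op1.combk_congr vb₃ fun l => hc _ (ht𝒮 x l) ω ω'
  -- frames of `W₁ ω`, `W₂ ω`
  have hF₁ : ∀ ω, R.IsFrame (fun a => R.comb v₁ fun i => s₁ a i ω)
      (fun a => R.combk vb₁ fun i => s₁ a i ω) := fun ω => ⟨fun a => red_comb h₁.red _, (H₁ ω).2⟩
  have hF₂ : ∀ ω, R.IsFrame (fun a => R.comb v₂ fun i => s₂ a i ω)
      (fun a => R.combk vb₂ fun i => s₂ a i ω) := fun ω => ⟨fun a => red_comb h₂.red _, (H₂ ω).2⟩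
  have hr₁ : ∀ ω, R.redSub (W₁ ω) = span k (Set.range fun a => R.combk vb₁ fun i => s₁ a i ω) :=
    fun ω => by rw [← (H₁ ω).1]; exact (hF₁ ω).redSub_span
  have hr₂ : ∀ ω, R.redSub (W₂ ω) = span k (Set.range fun a => R.combk vb₂ fun i => s₂ a i ω) :=
    fun ω => by rw [← (H₂ ω).1]; exact (hF₂ ω).redSub_span
  have hprod : ∀ ω, R.redSub (W₁ ω) * R.redSub (W₂ ω) =
      span k (Set.range fun x => R.combk vb₃ (fun l => t x l ω)) := by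
    intro ω
    rw [hr₁, hr₂, Submodule.span_mul_span]
    congr 1
    ext y
    constructor
    · rintro ⟨_, ⟨a, rfl⟩, _, ⟨b, rfl⟩, rfl⟩
      exact ⟨(a, b), hpb (a, b) ω⟩
    · rintro ⟨x, rfl⟩
      exact ⟨_, ⟨x.1, rfl⟩, _, ⟨x.2, rfl⟩, (hpb x ω).symm⟩
  -- a sub-basis at `ω₀`
  obtain ⟨b, hbsub, hbspan, hbind⟩ :=
    exists_linearIndependent k (Set.range fun x => R.combk vb₃ (fun l => t x l ω₀))
  have hbfin : b.Finite := (Set.finite_range _).subset hbsub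
  have : Fintype b := hbfin.fintype
  obtain ⟨d, hd⟩ : ∃ d, d = Fintype.card b := ⟨_, rfl⟩
  have e : Fin d ≃ b := (Fintype.equivFinOfCardEq hd.symm).symm
  choose idx hidx using fun a : Fin d => hbsub (e a).2
  have hfam : ∀ ω, (fun a => R.combk vb₃ (fun l => t (idx a) l ω)) =
      (fun y : b => (y : Fk)) ∘ e := fun ω => funext fun a => (hconst _ ω ω₀).trans (hidx a)
  have hind : ∀ ω, LinearIndependent k (fun a => R.combk vb₃ (fun l => t (idx a) l ω)) :=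
    fun ω => by rw [hfam ω]; exact hbind.comp e e.injective
  have hspan : ∀ ω, span k (Set.range fun a => R.combk vb₃ (fun l => t (idx a) l ω)) =
      R.redSub (W₁ ω) * R.redSub (W₂ ω) := by
    intro ω
    rw [hprod ω, hfam ω, Set.range_comp, e.surjective.range_eq, Set.image_univ,
      Subtype.range_coe, hbspan]
    congr 2
    funext x
    exact hconst x ω₀ ω
  have hF₃ : ∀ ω, R.IsFrame (fun a => R.comb v₃ fun l => t (idx a) l ω)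
      (fun a => R.combk vb₃ fun l => t (idx a) l ω) :=
    fun ω => ⟨fun a => red_comb h₃.red _, hind ω⟩
  have hcard : ∀ ω, finrank k (R.redSub (W₁ ω) * R.redSub (W₂ ω) : Submodule k Fk) = d := by
    intro ω
    rw [← hspan ω, finrank_span_eq_card (hind ω), Fintype.card_fin]
  have hWspan : ∀ ω, span K (Set.range fun a => R.comb v₃ fun l => t (idx a) l ω) =
      W₁ ω * W₂ ω := by
    intro ω
    have hfg : (W₁ ω * W₂ ω).FG := by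
      rw [← (H₁ ω).1, ← (H₂ ω).1]
      exact (fg_span (Set.finite_range _)).mul (fg_span (Set.finite_range _))
    have : Module.Finite K ↥(W₁ ω * W₂ ω) := Module.Finite.iff_fg.2 hfg
    refine isFrame_span_eq (hF₃ ω) (fun a => ?_) ((hdim ω).trans (hcard ω).le)
    rw [hp]
    refine Submodule.mul_mem_mul ?_ ?_
    · rw [← (H₁ ω).1]; exact subset_span ⟨_, rfl⟩
    · rw [← (H₂ ω).1]; exact subset_span ⟨_, rfl⟩
  refine ⟨⟨d, fun a l => t (idx a) l, fun a l => ht𝒮 _ _, fun ω => ⟨hWspan ω, hind ω⟩⟩,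
    fun ω => ?_⟩
  rw [← hWspan ω, (hF₃ ω).redSub_span, hspan ω]

end S3

end Fermat.Agent.S19.KM.RedData
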