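import Fermat.Agent.S19.KM.Red.Local

/-!
# S19 / KM route, section S1: kernel of a matrix of constant rank over `𝒮`  (owner helper247)

Proof.  Choose a maximal set `q` of columns of the reduced matrix which are linearly independent and
a left inverse `L` of the corresponding submatrix; lift `L` to a constant matrix `Lc` over `A`.
Then `P = Lc * Φ_q` is a square matrix over `𝒮` with reduction `1`, hence invertible over `𝒮` (S0),
and `M = P⁻¹ * Lc * Φ` has an identity block in the columns `q`.  The vectors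
`t_j = e_j - ∑_{i ∈ q} M i j e_i` (`j ∉ q`) have an identity block in the rows `∉ q`; every vector
killed by `Φ(ω)` is killed by `M(ω)` and hence is a combination of the `t_j(ω)`;
equality follows from the dimension hypothesis.
-/

set_option autoImplicit false

noncomputable section

namespace Fermat.Agent.S19.KM.RedData

open Module Submodule

namespace Kernel

/-- pivot columns of a matrix over a field: a set `q` of columns, a left inverse of the
corresponding submatrix, and the dimension estimate for the kernel. -/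
theorem exists_pivot {k p m : Type*} [Field k] [Fintype p] [Fintype m] [DecidableEq p]
    [DecidableEq m] (Ψ : Matrix p m k) :
    ∃ (q : m → Prop) (_ : DecidablePred q) (L : Matrix {j // q j} p k),
      L * Ψ.submatrix id (fun j : {j // q j} => (j : m)) = 1 ∧
      Fintype.card m ≤ finrank k (LinearMap.ker Ψ.mulVecLin) + Fintype.card {j // q j} := by
  obtain ⟨s, hs, hmax⟩ := exists_maximal_linearIndepOn k Ψ.col
  refine ⟨(· ∈ s), Classical.decPred _, ?_⟩
  let _ : DecidablePred (· ∈ s) := Classical.decPred _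
  set C : Matrix p {j // j ∈ s} k := Ψ.submatrix id (fun j : {j // j ∈ s} => (j : m)) with hC
  have hinj : Function.Injective C.mulVec := by
    rw [Matrix.mulVec_injective_iff]
    exact hs
  obtain ⟨g, hg⟩ := C.mulVecLin.exists_leftInverse_of_injective
    (LinearMap.ker_eq_bot.mpr hinj)
  refine ⟨LinearMap.toMatrix' g, ?_, ?_⟩
  · have h1 : C = LinearMap.toMatrix' C.mulVecLin := by
      rw [← Matrix.toLin'_apply', LinearMap.toMatrix'_toLin']
    rw [h1, ← LinearMap.toMatrix'_comp, hg, LinearMap.toMatrix'_id]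
  · have h1 := LinearMap.finrank_range_add_finrank_ker Ψ.mulVecLin
    rw [Module.finrank_fintype_fun_eq_card] at h1
    have h2 : LinearMap.range Ψ.mulVecLin ≤
        span k (Set.range fun j : {j // j ∈ s} => Ψ.col j) := by
      rw [Matrix.range_mulVecLin, span_le]
      rintro _ ⟨j, rfl⟩
      by_cases hj : j ∈ s
      · exact subset_span ⟨⟨j, hj⟩, rfl⟩
      · obtain ⟨a, ha, hmem⟩ := hmax j hj
        have h3 := (span k (Ψ.col '' s)).smul_mem a⁻¹ hmem
        rw [smul_smul, inv_mul_cancel₀ ha, one_smul, Set.image_eq_range] at h3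
        exact h3
    have h3 := Submodule.finrank_mono h2
    have h4 : finrank k (span k (Set.range fun j : {j // j ∈ s} => Ψ.col j)) ≤
        Fintype.card {j // j ∈ s} := finrank_range_le_card _
    show Fintype.card m ≤ finrank k (LinearMap.ker Ψ.mulVecLin) + Fintype.card {j // j ∈ s}
    omega

variable {K F k Fk : Type*} [Field K] [Field F] [Algebra K F] [Field k] [Field Fk] [Algebra k Fk]
variable {R : RedData K F k Fk} {Ω : Type*}

/-- evaluation at `ω`, with values in `K` -/
def evK (R : RedData K F k Fk) (ω : Ω) : (Ω → R.A) →+* K :=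
  R.A.subtype.comp (Pi.evalRingHom (fun _ => R.A) ω)

/-- evaluation at `ω` followed by reduction -/
def evk (R : RedData K F k Fk) (ω : Ω) : (Ω → R.A) →+* k :=
  R.res.comp (Pi.evalRingHom (fun _ => R.A) ω)

theorem matrix_mul_mem {l m n : Type*} [Fintype m] (𝒮 : Subalgebra R.A (Ω → R.A))
    {P : Matrix l m (Ω → R.A)} {Q : Matrix m n (Ω → R.A)} (hP : ∀ i j, P i j ∈ 𝒮)
    (hQ : ∀ i j, Q i j ∈ 𝒮) : ∀ i j, (P * Q) i j ∈ 𝒮 := by
  intro i j
  rw [Matrix.mul_apply]
  exact sum_mem fun l _ => mul_mem (hP i l) (hQ l j)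

/-- the matrix `M` with an identity block -/
theorem exists_block [Finite Ω] {p m : Type*} [Fintype p] [Fintype m] [DecidableEq m]
    {𝒮 : Subalgebra R.A (Ω → R.A)} (hc : R.ConstRed 𝒮) (Φ : Matrix p m (Ω → R.A))
    (hΦ : ∀ i j, Φ i j ∈ 𝒮) (ω₀ : Ω) :
    ∃ (q : m → Prop) (_ : DecidablePred q) (G : Matrix {j // q j} p (Ω → R.A)),
      (∀ i j, (G * Φ) i j ∈ 𝒮) ∧ (∀ i j : {j // q j}, (G * Φ) i j = if i = j then 1 else 0) ∧
      Fintype.card m ≤ finrank k (LinearMap.ker (Φ.map (evk R ω₀)).mulVecLin) +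
        Fintype.card {j // q j} := by
  classical
  obtain ⟨q, hq, L, hL, hcard⟩ := exists_pivot (Φ.map (evk R ω₀))
  refine ⟨q, hq, ?_⟩
  let lift : k → R.A := Function.surjInv R.res_surjective
  have hlift : ∀ c, R.res (lift c) = c := Function.surjInv_eq R.res_surjective
  let Lc : Matrix {j // q j} p (Ω → R.A) := fun i j _ => lift (L i j)
  have hLc : ∀ i j, Lc i j ∈ 𝒮 := fun i j => 𝒮.algebraMap_mem (lift (L i j))
  let C : Matrix p {j // q j} (Ω → R.A) := Φ.submatrix id (fun j : {j // q j} => (j : m))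
  have hCm : ∀ i j, C i j ∈ 𝒮 := fun i j => hΦ i j
  have hP := matrix_mul_mem 𝒮 hLc hCm
  have hPred : (Lc * C).map (fun f => R.res (f ω₀)) = 1 := by
    have h1 : (Lc * C).map (evk R ω₀) = Lc.map (evk R ω₀) * C.map (evk R ω₀) := Matrix.map_mul
    have h2 : Lc.map (evk R ω₀) = L := by
      ext i j
      exact hlift (L i j)
    have h3 : C.map (evk R ω₀) =
        (Φ.map (evk R ω₀)).submatrix id (fun j : {j // q j} => (j : m)) := rfl
    rw [h2, h3, hL] at h1
    exact h1
  obtain ⟨Q, hQ, -, hQP⟩ := exists_inv_matrix hc (Lc * C) hP (ω₀ := ω₀)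
    (by rw [hPred, Matrix.det_one]; exact one_ne_zero)
  refine ⟨Q * Lc, matrix_mul_mem 𝒮 (matrix_mul_mem 𝒮 hQ hLc) hΦ, fun i j => ?_, hcard⟩
  have h1 : (Q * Lc * Φ) i j = (Q * Lc * C) i j := by
    rw [Matrix.mul_apply, Matrix.mul_apply]
    rfl
  rw [h1, Matrix.mul_assoc, hQP, Matrix.one_apply]

/-- the vectors `t_j = e_j - ∑_{i ∈ q} M i j e_i`, `j ∉ q` -/
def tvec {m : Type*} [DecidableEq m] (q : m → Prop) [DecidablePred q]
    (M : Matrix {j // q j} m (Ω → R.A)) (j : {j // ¬ q j}) (i : m) : Ω → R.A :=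
  if i = j then 1 else if h : q i then - M ⟨i, h⟩ j else 0

theorem tvec_mem {m : Type*} [DecidableEq m] (q : m → Prop) [DecidablePred q]
    (𝒮 : Subalgebra R.A (Ω → R.A)) (M : Matrix {j // q j} m (Ω → R.A)) (hM : ∀ i j, M i j ∈ 𝒮)
    (j : {j // ¬ q j}) (i : m) : tvec q M j i ∈ 𝒮 := by
  unfold tvec
  split_ifs
  · exact one_mem 𝒮
  · exact neg_mem (hM _ _)
  · exact zero_mem 𝒮

theorem tvec_free {m : Type*} [DecidableEq m] (q : m → Prop) [DecidablePred q]
    (M : Matrix {j // q j} m (Ω → R.A)) (j i : {j // ¬ q j}) :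
    tvec q M j (i : m) = if i = j then 1 else 0 := by
  unfold tvec
  by_cases h : i = j
  · rw [if_pos (congrArg Subtype.val h), if_pos h]
  · rw [if_neg (fun h' => h (Subtype.ext h')), if_neg h, dif_neg i.2]

theorem tvec_pivot {m : Type*} [DecidableEq m] (q : m → Prop) [DecidablePred q]
    (M : Matrix {j // q j} m (Ω → R.A)) (j : {j // ¬ q j}) (i : {j // q j}) :
    tvec q M j (i : m) = - M i j := by
  unfold tvec
  have hne : (i : m) ≠ (j : m) := fun h' => j.2 (h' ▸ i.2)
  rw [if_neg hne, dif_pos i.2]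

/-- independence from the identity block, for any ring homomorphism to a field -/
theorem linearIndependent_tvec {m : Type*} [Fintype m] [DecidableEq m] (q : m → Prop)
    [DecidablePred q] (M : Matrix {j // q j} m (Ω → R.A)) {E : Type*} [Field E]
    (f : (Ω → R.A) →+* E) : LinearIndependent E (fun j => fun i => f (tvec q M j i)) := by
  rw [Fintype.linearIndependent_iff]
  intro g hg j₀
  have h := congrFun hg (j₀ : m)
  simp only [Finset.sum_apply, Pi.smul_apply, smul_eq_mul, Pi.zero_apply, tvec_free] at h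
  simpa [apply_ite f] using h

/-- a vector killed by a matrix with an identity block is a combination of the `t_j` -/
theorem mem_span_tvec {m : Type*} [Fintype m] [DecidableEq m] (q : m → Prop)
    [DecidablePred q] (M : Matrix {j // q j} m (Ω → R.A))
    (hM : ∀ i j : {j // q j}, M i j = if i = j then 1 else 0) {E : Type*} [Field E]
    (f : (Ω → R.A) →+* E) (x : m → E) (hx : (M.map f).mulVec x = 0) :
    x ∈ span E (Set.range fun j => fun i => f (tvec q M j i)) := by
  have hsum : x = ∑ j : {j // ¬ q j}, x j • (fun i => f (tvec q M j i)) := by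
    ext i
    simp only [Finset.sum_apply, Pi.smul_apply, smul_eq_mul]
    by_cases hi : q i
    · have h1 := congrFun hx ⟨i, hi⟩
      rw [Matrix.mulVec, dotProduct, ← Fintype.sum_subtype_add_sum_subtype q] at h1
      simp only [Matrix.map_apply, hM, Pi.zero_apply] at h1
      have h2 : ∀ j : {j // ¬ q j}, f (tvec q M j i) = - f (M ⟨i, hi⟩ j) := by
        intro j
        rw [← map_neg]
        exact congrArg f (tvec_pivot q M j ⟨i, hi⟩)
      simp only [h2]
      simp only [apply_ite f, map_one, map_zero, ite_mul, one_mul, zero_mul,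
        Finset.sum_ite_eq, Finset.mem_univ, if_true] at h1
      rw [eq_neg_of_add_eq_zero_left h1, ← Finset.sum_neg_distrib]
      exact Finset.sum_congr rfl fun j _ => by ring
    · have h2 : ∀ j : {j // ¬ q j}, f (tvec q M j i) = if (⟨i, hi⟩ : {j // ¬ q j}) = j then 1 else 0 := by
        intro j
        rw [show tvec q M j i = _ from tvec_free q M j ⟨i, hi⟩, apply_ite f, map_one, map_zero]
      simp [h2]
  rw [hsum]
  exact sum_mem fun j _ => smul_mem _ _ (subset_span ⟨j, rfl⟩)

end Kernel

section S1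
variable {K F k Fk : Type*} [Field K] [Field F] [Algebra K F] [Field k] [Field Fk] [Algebra k Fk]
variable {R : RedData K F k Fk} {Ω : Type*}

open Kernel in
/-- **Kernel of a matrix of constant rank over `𝒮`.** -/
theorem exists_kernel_basis [Finite Ω] {p m : Type*} [Fintype p] [Fintype m] [DecidableEq m]
    {𝒮 : Subalgebra R.A (Ω → R.A)} (hc : R.ConstRed 𝒮) (Φ : Matrix p m (Ω → R.A))
    (hΦ : ∀ i j, Φ i j ∈ 𝒮)
    (hdim : ∀ ω, finrank k (LinearMap.ker (Φ.map fun s => R.res (s ω)).mulVecLin) ≤
      finrank K (LinearMap.ker (Φ.map fun s => ((s ω : R.A) : K)).mulVecLin)) :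
    ∃ (d : ℕ) (t : Fin d → m → Ω → R.A), (∀ a j, t a j ∈ 𝒮) ∧
      ∀ ω, span K (Set.range fun a => fun j => ((t a j ω : R.A) : K)) =
          LinearMap.ker (Φ.map fun s => ((s ω : R.A) : K)).mulVecLin ∧
        LinearIndependent k (fun a => fun j => R.res (t a j ω)) := by
  rcases isEmpty_or_nonempty Ω with hΩ | ⟨⟨ω₀⟩⟩
  · exact ⟨0, fun a => a.elim0, fun a => a.elim0, fun ω => hΩ.elim ω⟩
  obtain ⟨q, hq, G, hGm, hGb, hcard⟩ := exists_block hc Φ hΦ ω₀
  let e := Fintype.equivFin {j // ¬ q j}
  refine ⟨Fintype.card {j // ¬ q j}, fun a => tvec q (G * Φ) (e.symm a),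
    fun a j => tvec_mem q 𝒮 _ hGm _ _, fun ω => ⟨?_, ?_⟩⟩
  · have hrange : (Set.range fun a => fun j => ((tvec q (G * Φ) (e.symm a) j ω : R.A) : K)) =
        Set.range fun j => fun i => evK R ω (tvec q (G * Φ) j i) :=
      e.symm.surjective.range_comp (fun j => fun i => evK R ω (tvec q (G * Φ) j i))
    rw [hrange]
    symm
    apply Submodule.eq_of_le_of_finrank_le
    · intro x hx
      apply mem_span_tvec q (G * Φ) hGb (evK R ω) x
      have hx' : (Φ.map (evK R ω)).mulVec x = 0 := hx
      rw [Matrix.map_mul, ← Matrix.mulVec_mulVec, hx', Matrix.mulVec_zero]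
    · have h1 : finrank K (span K (Set.range fun j => fun i => evK R ω (tvec q (G * Φ) j i))) ≤
          Fintype.card {j // ¬ q j} := finrank_range_le_card _
      have h2 := Fintype.card_subtype_compl q
      have h3 := hdim ω
      have h4 : (Φ.map fun s => R.res (s ω)) = Φ.map (evk R ω₀) := by
        ext i j
        exact hc _ (hΦ i j) ω ω₀
      rw [h4] at h3
      omega
  · exact (linearIndependent_tvec q (G * Φ) (evk R ω)).comp e.symm e.symm.injective

end S1

end Fermat.Agent.S19.KM.RedData
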