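import Fermat.Agent.S19.KM.Red.Basic
import Fermat.Agent.S19.KM.Red.Frame
import Fermat.Agent.S19.KM.Red.Kernel
import Fermat.Agent.S19.KM.Red.Op1

/-!
# S19 / KM route, layer S3: the operation Op2 (colon spaces) preserves regular families
Owner: helper139.  The colon space is the projection of the kernel of the matrix `Op2.colonMat`
(unknowns `(t, lam)` with `(sum t_i e1_i) y_b = sum_c lam_{b c} w_c`), to which the constant rank
kernel theorem applies.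
-/

set_option autoImplicit false

noncomputable section

namespace Fermat.Agent.S19.KM.RedData

open Module Submodule

namespace Op2

section Mat
variable {Rg : Type*} [CommRing Rg] {ι₁ ι₂ ι₃ : Type*} [Fintype ι₂] {d₂ d₃ : ℕ}

/-- The matrix whose kernel is `{(t, λ) | (∑ t_i e₁_i) y_b = ∑_c λ_{b c} w_c for all b}`. -/
def colonMat (γ : ι₁ → ι₂ → ι₃ → Rg) (σ₂ : Fin d₂ → ι₂ → Rg) (σ₃ : Fin d₃ → ι₃ → Rg) :
    Matrix (Fin d₂ × ι₃) (ι₁ ⊕ (Fin d₂ × Fin d₃)) Rg :=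
  fun r z => Sum.elim (fun i => ∑ j, σ₂ r.1 j * γ i j r.2)
    (fun q => if q.1 = r.1 then - σ₃ q.2 r.2 else 0) z

theorem colonMat_map {Rg' : Type*} [CommRing Rg'] (f : Rg →+* Rg') (γ : ι₁ → ι₂ → ι₃ → Rg)
    (σ₂ : Fin d₂ → ι₂ → Rg) (σ₃ : Fin d₃ → ι₃ → Rg) :
    (colonMat γ σ₂ σ₃).map f =
      colonMat (fun i j l => f (γ i j l)) (fun b j => f (σ₂ b j)) (fun c l => f (σ₃ c l)) := by
  ext r z
  rcases z with i | q
  · simp [colonMat, map_sum, map_mul]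
  · simp only [colonMat, Matrix.map_apply, Sum.elim_inr]
    split_ifs <;> simp

theorem colonMat_mulVec [Fintype ι₁] (γ : ι₁ → ι₂ → ι₃ → Rg)
    (σ₂ : Fin d₂ → ι₂ → Rg) (σ₃ : Fin d₃ → ι₃ → Rg) (z : ι₁ ⊕ (Fin d₂ × Fin d₃) → Rg)
    (b : Fin d₂) (l : ι₃) :
    (colonMat γ σ₂ σ₃).mulVec z (b, l) =
      ∑ i, (∑ j, σ₂ b j * γ i j l) * z (Sum.inl i) - ∑ c, σ₃ c l * z (Sum.inr (b, c)) := by
  simp only [Matrix.mulVec, dotProduct, Fintype.sum_sum_type, colonMat, Sum.elim_inl, Sum.elim_inr,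
    Fintype.sum_prod_type, ite_mul, zero_mul, neg_mul]
  rw [sub_eq_add_neg]
  congr 1
  rw [Finset.sum_eq_single b]
  · simp
  · intro b' _ hb'
    simp [hb']
  · simp

end Mat
section Generic
variable {E V : Type*} [Field E] [Field V] [Algebra E V]
  {ι₁ ι₂ ι₃ : Type*} [Fintype ι₁] [Fintype ι₂] [Fintype ι₃] {d₂ d₃ : ℕ}
  {e₁ : ι₁ → V} {e₂ : ι₂ → V} {e₃ : ι₃ → V}
  {γ : ι₁ → ι₂ → ι₃ → E} {σ₂ : Fin d₂ → ι₂ → E} {σ₃ : Fin d₃ → ι₃ → E}

/-- projection to `V` -/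
def proj (e₁ : ι₁ → V) (d₂ d₃ : ℕ) : (ι₁ ⊕ (Fin d₂ × Fin d₃) → E) →ₗ[E] V :=
  ∑ i, (LinearMap.proj (Sum.inl i) : (ι₁ ⊕ (Fin d₂ × Fin d₃) → E) →ₗ[E] E).smulRight (e₁ i)

theorem proj_apply (z : ι₁ ⊕ (Fin d₂ × Fin d₃) → E) :
    proj (E := E) e₁ d₂ d₃ z = ∑ i, z (Sum.inl i) • e₁ i := by
  simp [proj]

theorem prod_expand (hγ : ∀ i j, e₁ i * e₂ j = ∑ l, γ i j l • e₃ l) (t : ι₁ → E) (b : Fin d₂) :
    (∑ i, t i • e₁ i) * (∑ j, σ₂ b j • e₂ j) =
      ∑ l, (∑ i, (∑ j, σ₂ b j * γ i j l) * t i) • e₃ l := by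
  rw [Finset.sum_mul_sum]
  simp only [smul_mul_smul_comm, hγ, Finset.smul_sum, smul_smul, Finset.sum_smul, Finset.sum_mul]
  conv_rhs => rw [Finset.sum_comm]
  refine Finset.sum_congr rfl fun i _ => ?_
  conv_rhs => rw [Finset.sum_comm]
  refine Finset.sum_congr rfl fun j _ => ?_
  refine Finset.sum_congr rfl fun l _ => ?_
  congr 1
  ring
omit [Fintype ι₁] in
theorem rhs_expand (z : ι₁ ⊕ (Fin d₂ × Fin d₃) → E) (b : Fin d₂) :
    ∑ c, z (Sum.inr (b, c)) • ∑ l, σ₃ c l • e₃ l =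
      ∑ l, (∑ c, σ₃ c l * z (Sum.inr (b, c))) • e₃ l := by
  simp only [Finset.smul_sum, smul_smul, Finset.sum_smul]
  rw [Finset.sum_comm]
  refine Finset.sum_congr rfl fun l _ => ?_
  refine Finset.sum_congr rfl fun c _ => ?_
  rw [mul_comm]

theorem mem_ker_iff (h₃ : LinearIndependent E e₃)
    (hγ : ∀ i j, e₁ i * e₂ j = ∑ l, γ i j l • e₃ l) (z : ι₁ ⊕ (Fin d₂ × Fin d₃) → E) :
    z ∈ LinearMap.ker (colonMat γ σ₂ σ₃).mulVecLin ↔
      ∀ b, (∑ i, z (Sum.inl i) • e₁ i) * (∑ j, σ₂ b j • e₂ j) =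
        ∑ c, z (Sum.inr (b, c)) • ∑ l, σ₃ c l • e₃ l := by
  rw [LinearMap.mem_ker, Matrix.mulVecLin_apply]
  constructor
  · intro h b
    rw [prod_expand hγ, rhs_expand]
    refine Finset.sum_congr rfl fun l _ => ?_
    have := congrFun h (b, l)
    rw [colonMat_mulVec, Pi.zero_apply, sub_eq_zero] at this
    rw [this]
  · intro h
    ext ⟨b, l⟩
    rw [colonMat_mulVec, Pi.zero_apply]
    have hb := h b
    rw [prod_expand hγ, rhs_expand, ← sub_eq_zero, ← Finset.sum_sub_distrib] at hb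
    simp only [← sub_smul] at hb
    exact Fintype.linearIndependent_iff.mp h₃ _ hb l

theorem map_ker_eq (h₃ : LinearIndependent E e₃)
    (hγ : ∀ i j, e₁ i * e₂ j = ∑ l, γ i j l • e₃ l) :
    (LinearMap.ker (colonMat γ σ₂ σ₃).mulVecLin).map (proj (E := E) e₁ d₂ d₃) =
      KM.colon (span E (Set.range e₁)) (span E (Set.range fun b => ∑ j, σ₂ b j • e₂ j))
        (span E (Set.range fun c => ∑ l, σ₃ c l • e₃ l)) := by
  apply le_antisymm
  · rintro _ ⟨z, hz, rfl⟩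
    rw [SetLike.mem_coe, mem_ker_iff h₃ hγ] at hz
    rw [proj_apply, mem_colon]
    refine ⟨Submodule.sum_mem _ fun i _ => Submodule.smul_mem _ _ (subset_span ⟨i, rfl⟩), ?_⟩
    intro y hy
    induction hy using Submodule.span_induction with
    | mem y hy =>
      obtain ⟨b, rfl⟩ := hy
      rw [hz b]
      exact Submodule.sum_mem _ fun c _ => Submodule.smul_mem _ _ (subset_span ⟨c, rfl⟩)
    | zero => simp
    | add y y' _ _ h h' => rw [mul_add]; exact Submodule.add_mem _ h h'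
    | smul a y _ h => rw [mul_smul_comm]; exact Submodule.smul_mem _ _ h
  · intro u hu
    rw [mem_colon] at hu
    obtain ⟨t, rfl⟩ := (Submodule.mem_span_range_iff_exists_fun E).mp hu.1
    have h2 : ∀ b : Fin d₂, ∃ lam : Fin d₃ → E, ∑ c, lam c • (∑ l, σ₃ c l • e₃ l) =
        (∑ i, t i • e₁ i) * (∑ j, σ₂ b j • e₂ j) := fun b =>
      (Submodule.mem_span_range_iff_exists_fun E).mp (hu.2 _ (subset_span ⟨b, rfl⟩))
    choose lam hlam using h2
    refine ⟨Sum.elim t fun q => lam q.1 q.2, ?_, ?_⟩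
    · rw [SetLike.mem_coe, mem_ker_iff h₃ hγ]
      intro b
      simp only [Sum.elim_inl, Sum.elim_inr]
      exact (hlam b).symm
    · rw [proj_apply]
      simp

theorem eq_zero_of_proj_eq_zero (h₁ : LinearIndependent E e₁) (h₃ : LinearIndependent E e₃)
    (hw : LinearIndependent E fun c => ∑ l, σ₃ c l • e₃ l)
    (hγ : ∀ i j, e₁ i * e₂ j = ∑ l, γ i j l • e₃ l) {z : ι₁ ⊕ (Fin d₂ × Fin d₃) → E}
    (hz : z ∈ LinearMap.ker (colonMat γ σ₂ σ₃).mulVecLin)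
    (h0 : proj (E := E) e₁ d₂ d₃ z = 0) : z = 0 := by
  rw [proj_apply] at h0
  rw [mem_ker_iff h₃ hγ] at hz
  have h1 := Fintype.linearIndependent_iff.mp h₁ _ h0
  ext q
  rcases q with i | ⟨b, c⟩
  · exact h1 i
  · have := hz b
    rw [h0, zero_mul] at this
    exact Fintype.linearIndependent_iff.mp hw _ this.symm c

theorem disjoint_ker (h₁ : LinearIndependent E e₁) (h₃ : LinearIndependent E e₃)
    (hw : LinearIndependent E fun c => ∑ l, σ₃ c l • e₃ l)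
    (hγ : ∀ i j, e₁ i * e₂ j = ∑ l, γ i j l • e₃ l) :
    Disjoint (LinearMap.ker (colonMat γ σ₂ σ₃).mulVecLin)
      (LinearMap.ker (proj (E := E) e₁ d₂ d₃)) := by
  rw [Submodule.disjoint_def]
  intro z hz h0
  exact eq_zero_of_proj_eq_zero h₁ h₃ hw hγ hz (LinearMap.mem_ker.mp h0)

theorem finrank_ker_eq (h₁ : LinearIndependent E e₁) (h₃ : LinearIndependent E e₃)
    (hw : LinearIndependent E fun c => ∑ l, σ₃ c l • e₃ l)
    (hγ : ∀ i j, e₁ i * e₂ j = ∑ l, γ i j l • e₃ l) :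
    finrank E (LinearMap.ker (colonMat γ σ₂ σ₃).mulVecLin) =
      finrank E (KM.colon (span E (Set.range e₁)) (span E (Set.range fun b => ∑ j, σ₂ b j • e₂ j))
        (span E (Set.range fun c => ∑ l, σ₃ c l • e₃ l))) := by
  rw [← map_ker_eq h₃ hγ, ← LinearMap.range_domRestrict]
  refine (LinearMap.finrank_range_of_inj ?_).symm
  intro z z' hzz'
  have h0 : proj (E := E) e₁ d₂ d₃ ((z - z' : LinearMap.ker (colonMat γ σ₂ σ₃).mulVecLin) :
      ι₁ ⊕ (Fin d₂ × Fin d₃) → E) = 0 := by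
    have : proj (E := E) e₁ d₂ d₃ (z : ι₁ ⊕ (Fin d₂ × Fin d₃) → E) =
        proj (E := E) e₁ d₂ d₃ (z' : ι₁ ⊕ (Fin d₂ × Fin d₃) → E) := hzz'
    rw [Submodule.coe_sub, map_sub, this, sub_self]
  have := eq_zero_of_proj_eq_zero h₁ h₃ hw hγ (z - z').2 h0
  exact sub_eq_zero.mp (Subtype.ext this)

end Generic
end Op2

section S3
variable {K F k Fk : Type*} [Field K] [Field F] [Algebra K F] [Field k] [Field Fk] [Algebra k Fk]
variable {R : RedData K F k Fk}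
variable {Ω : Type*} {ι₁ ι₂ ι₃ : Type*} [Fintype ι₁] [Fintype ι₂] [Fintype ι₃]
  {v₁ : ι₁ → F} {vb₁ : ι₁ → Fk} {v₂ : ι₂ → F} {vb₂ : ι₂ → Fk} {v₃ : ι₃ → F} {vb₃ : ι₃ → Fk}

/-- reduction of a relation -/
theorem Op2.mem_ker_res {p m : Type*} [Fintype m] (Φ : Matrix p m (Ω → R.A)) (ω : Ω)
    (x : m → R.A)
    (h : (fun z => ((x z : R.A) : K)) ∈
      LinearMap.ker (Φ.map fun s => ((s ω : R.A) : K)).mulVecLin) :
    (fun z => R.res (x z)) ∈ LinearMap.ker (Φ.map fun s => R.res (s ω)).mulVecLin := by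
  rw [LinearMap.mem_ker, Matrix.mulVecLin_apply] at h ⊢
  ext r
  have hr := congrFun h r
  simp only [Matrix.mulVec, dotProduct, Matrix.map_apply, Pi.zero_apply] at hr ⊢
  have h1 : ∑ z, Φ r z ω * x z = 0 := by
    apply Subtype.ext
    push_cast
    exact hr
  have := congrArg R.res h1
  simpa [map_sum, map_mul] using this

/-- **Op2: colon spaces.** -/
theorem IsReg.colon [Finite Ω] (h₁ : R.IsFrame v₁ vb₁) (h₂ : R.IsFrame v₂ vb₂)
    (h₃ : R.IsFrame v₃ vb₃) (hmul : ∀ a b, v₁ a * v₂ b ∈ span K (Set.range v₃))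
    {𝒮 : Subalgebra R.A (Ω → R.A)} (hc : R.ConstRed 𝒮) {W₂ W₃ : Ω → Submodule K F}
    (hW₂ : R.IsReg 𝒮 v₂ vb₂ W₂) (hW₃ : R.IsReg 𝒮 v₃ vb₃ W₃)
    (hdim : ∀ ω, finrank k (KM.colon (span k (Set.range vb₁)) (R.redSub (W₂ ω)) (R.redSub (W₃ ω))) ≤
      finrank K (KM.colon (span K (Set.range v₁)) (W₂ ω) (W₃ ω))) :
    R.IsReg 𝒮 v₁ vb₁ (fun ω => KM.colon (span K (Set.range v₁)) (W₂ ω) (W₃ ω)) ∧
      ∀ ω, R.redSub (KM.colon (span K (Set.range v₁)) (W₂ ω) (W₃ ω)) =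
        KM.colon (span k (Set.range vb₁)) (R.redSub (W₂ ω)) (R.redSub (W₃ ω)) := by
  classical
  obtain ⟨γ, hγ⟩ := exists_structure_constants h₁ h₂ h₃ hmul
  obtain ⟨d₂, s₂, hs₂, hW₂'⟩ := hW₂
  obtain ⟨d₃, s₃, hs₃, hW₃'⟩ := hW₃
  have hγK : ∀ i j, v₁ i * v₂ j = ∑ l, ((γ i j l : R.A) : K) • v₃ l := fun i j => (hγ i j).1
  have hγk : ∀ i j, vb₁ i * vb₂ j = ∑ l, R.res (γ i j l) • vb₃ l := fun i j => (hγ i j).2
  -- the frames given by the regular bases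
  have hfy : ∀ ω, R.IsFrame (fun b => R.comb v₂ fun j => s₂ b j ω)
      (fun b => R.combk vb₂ fun j => s₂ b j ω) := fun ω =>
    ⟨fun b => red_comb h₂.red _, (hW₂' ω).2⟩
  have hfw : ∀ ω, R.IsFrame (fun c => R.comb v₃ fun l => s₃ c l ω)
      (fun c => R.combk vb₃ fun l => s₃ c l ω) := fun ω =>
    ⟨fun c => red_comb h₃.red _, (hW₃' ω).2⟩
  have hrW₂ : ∀ ω, R.redSub (W₂ ω) = span k (Set.range fun b => R.combk vb₂ fun j => s₂ b j ω) :=
    fun ω => by rw [← (hW₂' ω).1, (hfy ω).redSub_span]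
  have hrW₃ : ∀ ω, R.redSub (W₃ ω) = span k (Set.range fun c => R.combk vb₃ fun l => s₃ c l ω) :=
    fun ω => by rw [← (hW₃' ω).1, (hfw ω).redSub_span]
  -- the matrix
  set Φ : Matrix (Fin d₂ × ι₃) (ι₁ ⊕ (Fin d₂ × Fin d₃)) (Ω → R.A) :=
    Op2.colonMat (fun i j l => algebraMap R.A (Ω → R.A) (γ i j l)) s₂ s₃ with hΦdef
  have hΦ : ∀ r z, Φ r z ∈ 𝒮 := by
    intro r z
    rcases z with i | q
    · exact Subalgebra.sum_mem _ fun j _ => Subalgebra.mul_mem _ (hs₂ _ _)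
        (Subalgebra.algebraMap_mem _ _)
    · simp only [hΦdef, Op2.colonMat, Sum.elim_inr]
      split_ifs
      · exact Subalgebra.neg_mem _ (hs₃ _ _)
      · exact Subalgebra.zero_mem _
  have hΦK : ∀ ω, (Φ.map fun s => ((s ω : R.A) : K)) =
      Op2.colonMat (fun i j l => ((γ i j l : R.A) : K)) (fun b j => ((s₂ b j ω : R.A) : K))
        (fun c l => ((s₃ c l ω : R.A) : K)) := fun ω =>
    Op2.colonMat_map ((R.A.subtype).comp (Pi.evalRingHom (fun _ : Ω => R.A) ω)) _ _ _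
  have hΦk : ∀ ω, (Φ.map fun s => R.res (s ω)) =
      Op2.colonMat (fun i j l => R.res (γ i j l)) (fun b j => R.res (s₂ b j ω))
        (fun c l => R.res (s₃ c l ω)) := fun ω =>
    Op2.colonMat_map (R.res.comp (Pi.evalRingHom (fun _ : Ω => R.A) ω)) _ _ _
  have hcolK : ∀ ω, KM.colon (span K (Set.range v₁)) (W₂ ω) (W₃ ω) =
      KM.colon (span K (Set.range v₁))
        (span K (Set.range fun b => ∑ j, ((s₂ b j ω : R.A) : K) • v₂ j))
        (span K (Set.range fun c => ∑ l, ((s₃ c l ω : R.A) : K) • v₃ l)) := fun ω => by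
    rw [← (hW₂' ω).1, ← (hW₃' ω).1]; rfl
  have hcolk : ∀ ω, KM.colon (span k (Set.range vb₁)) (R.redSub (W₂ ω)) (R.redSub (W₃ ω)) =
      KM.colon (span k (Set.range vb₁))
        (span k (Set.range fun b => ∑ j, R.res (s₂ b j ω) • vb₂ j))
        (span k (Set.range fun c => ∑ l, R.res (s₃ c l ω) • vb₃ l)) := fun ω => by
    rw [hrW₂, hrW₃]; rfl
  have hS1 : ∀ ω, finrank k (LinearMap.ker (Φ.map fun s => R.res (s ω)).mulVecLin) ≤
      finrank K (LinearMap.ker (Φ.map fun s => ((s ω : R.A) : K)).mulVecLin) := by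
    intro ω
    rw [hΦK, hΦk, Op2.finrank_ker_eq h₁.indep h₃.indep (hW₃' ω).2 hγk,
      Op2.finrank_ker_eq h₁.linearIndependent h₃.linearIndependent (hfw ω).linearIndependent hγK,
      ← hcolK, ← hcolk]
    exact hdim ω
  obtain ⟨d, τ, hτ, hτ'⟩ := exists_kernel_basis hc Φ hΦ hS1
  refine ⟨⟨d, fun a i => τ a (Sum.inl i), fun a i => hτ a _, fun ω => ⟨?_, ?_⟩⟩, fun ω => ?_⟩
  · have e : (fun a => R.comb v₁ fun i => τ a (Sum.inl i) ω) =
        Op2.proj (E := K) v₁ d₂ d₃ ∘ fun a => fun z => ((τ a z ω : R.A) : K) := by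
      funext a
      rw [Function.comp_apply, Op2.proj_apply]
      rfl
    rw [e, Set.range_comp, ← Submodule.map_span, (hτ' ω).1, hΦK,
      Op2.map_ker_eq h₃.linearIndependent hγK, ← hcolK]
  · have e : (fun a => R.combk vb₁ fun i => τ a (Sum.inl i) ω) =
        Op2.proj (E := k) vb₁ d₂ d₃ ∘ fun a => fun z => R.res (τ a z ω) := by
      funext a
      rw [Function.comp_apply, Op2.proj_apply]
      rfl
    rw [e]
    refine (hτ' ω).2.map ?_
    refine (Op2.disjoint_ker (σ₂ := fun b j => R.res (s₂ b j ω)) h₁.indep h₃.indep (hW₃' ω).2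
      hγk).mono_left ?_
    rw [Submodule.span_le, ← hΦk]
    rintro _ ⟨a, rfl⟩
    apply Op2.mem_ker_res
    rw [← (hτ' ω).1]
    exact subset_span ⟨a, rfl⟩
  · have hle : R.redSub (KM.colon (span K (Set.range v₁)) (W₂ ω) (W₃ ω)) ≤
        KM.colon (span k (Set.range vb₁)) (R.redSub (W₂ ω)) (R.redSub (W₃ ω)) := by
      have := redSub_colon_le (R := R) (span K (Set.range v₁)) (W₂ ω) (W₃ ω)
      rwa [h₁.redSub_span] at this
    have hcle : KM.colon (span K (Set.range v₁)) (W₂ ω) (W₃ ω) ≤ span K (Set.range v₁) :=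
      fun u hu => hu.1
    have hcle' : KM.colon (span k (Set.range vb₁)) (R.redSub (W₂ ω)) (R.redSub (W₃ ω)) ≤
        span k (Set.range vb₁) := fun u hu => hu.1
    have : FiniteDimensional k (span k (Set.range vb₁)) :=
      FiniteDimensional.span_of_finite k (Set.finite_range vb₁)
    have : FiniteDimensional k
        (KM.colon (span k (Set.range vb₁)) (R.redSub (W₂ ω)) (R.redSub (W₃ ω))) :=
      Submodule.finiteDimensional_of_le hcle'
    refine Submodule.eq_of_le_of_finrank_le hle ?_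
    rw [h₁.finrank_redSub hcle]
    exact hdim ω

end S3

end Fermat.Agent.S19.KM.RedData
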